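import Fermat.Agent.GaloisReps.OfInjective
import Fermat.Agent.GaloisReps.UnipotentModel
import Fermat.Agent.GaloisReps.Unramified
import Fermat.Agent.NewformLocal.Assembly

/-!
# Representations over Hecke algebras and of newforms at a prime exactly dividing the level

The statements of S34 and S35 from injectivity of reduction on torsion and the two local inputs on
the Jacobian.
-/

set_option autoImplicit false

noncomputable section

open Polynomial IsLocalRing
open CuspForm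

namespace Fermat.Agent.Semistable

open GaloisReps (modelOfCongruence congruenceProperty_all TorsionUnipotentAt)

/-- Unipotence of inertia on the datum of a Hecke algebra. -/
theorem isUnipotentOnInertiaAt_datum
    (hinj : ∀ (N : ℕ) [NeZero N], EichlerShimura.InjectiveOnTorsion N)
    (hTU : ∀ (N q : ℕ) [NeZero N], q.Prime → q ∣ N → ¬ q ^ 2 ∣ N → TorsionUnipotentAt N q)
    {𝒪 : Type} [CommRing 𝒪] [IsDomain 𝒪] [IsDiscreteValuationRing 𝒪]
    [IsAdicComplete (maximalIdeal 𝒪) 𝒪] [Finite (ResidueField 𝒪)] [CharZero 𝒪]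
    {p : ℕ} (hp : p.Prime) (hp𝒪 : (p : 𝒪) ∈ maximalIdeal 𝒪)
    {N : ℕ} [NeZero N] {S : Finset ℕ} (hpS : p ∈ S) (hNS : ∀ q : ℕ, q.Prime → q ∣ N → q ∈ S)
    {θ : CuspForm.heckeAlgebra N 2 (↑S : Set ℕ) →+* ResidueField 𝒪}
    {T : Type} [CommRing T] [IsLocalRing T] [IsNoetherianRing T]
    [IsAdicComplete (maximalIdeal T) T] [Algebra 𝒪 T] [IsLocalHom (algebraMap 𝒪 T)]
    [Module.Finite 𝒪 T] [Module.Free 𝒪 T]
    (H : CuspForm.HeckeGaloisRepDatum N (↑S : Set ℕ) 𝒪 θ T)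
    (q : ℕ) (hq : q.Prime) (hqp : q ≠ p) (hqN : q ∣ N) (hq2 : ¬ q ^ 2 ∣ N) :
    H.ρ.IsUnipotentOnInertiaAt q := by
  have : Fact p.Prime := ⟨hp⟩
  exact GaloisReps.isUnipotentOnInertiaAt_of_model
    (modelOfCongruence (congruenceProperty_all hinj N p)) hp𝒪 H q hq hqp
    (GaloisReps.unipotentAt_modelOfCongruence _ hq hqp (hTU N q hq hqN hq2))

/-- Representations of newforms with the characteristic polynomial of Frobenius at the primes
exactly dividing the level. -/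
theorem exists_rep_frobenius_bad
    (hinj : ∀ (N : ℕ) [NeZero N], EichlerShimura.InjectiveOnTorsion N)
    (hTU : ∀ (N q : ℕ) [NeZero N], q.Prime → q ∣ N → ¬ q ^ 2 ∣ N → TorsionUnipotentAt N q)
    (hTS : ∀ (N p : ℕ) [NeZero N] [Fact p.Prime] (hES : GaloisReps.CongruenceProperty N p) (q : ℕ),
      q.Prime → q ≠ p → q ∣ N → ¬ q ^ 2 ∣ N →
        NewformLocal.ToricSquareAt (modelOfCongruence hES) q)
    {M : ℕ} [NeZero M] {g : CuspForm (CongruenceSubgroup.Gamma0 M) 2} (hg : g.IsNewform)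
    (lam : ℕ) [Fact lam.Prime]
    (S : Finset ℕ)
    (O' : Type) [CommRing O'] [IsDomain O'] [IsDiscreteValuationRing O']
    [IsAdicComplete (IsLocalRing.maximalIdeal O') O'] [Finite (IsLocalRing.ResidueField O')]
    [CharZero O'] (hlamO' : (lam : O') ∈ IsLocalRing.maximalIdeal O')
    (chig : CuspForm.heckeAlgebra M 2 (↑S : Set ℕ) →+* ℂ)
    (hchig : ∀ (ℓ : ℕ) (hℓ : ℓ.Prime) (hℓM : ¬ ℓ ∣ M) (hℓS : ℓ ∉ (↑S : Set ℕ)),
      chig (CuspForm.heckeAlgebra.T hℓ hℓM hℓS) = ModularFormClass.qCoeff g ℓ)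
    (iota : chig.range →+* O')
    (hlamS : lam ∈ S) (hMS : ∀ q : ℕ, q.Prime → q ∣ M → q ∈ S)
    :
    ∃ (O'' : Type) (_ : CommRing O'') (_ : IsDomain O'') (_ : IsDiscreteValuationRing O'')
      (_ : IsAdicComplete (IsLocalRing.maximalIdeal O'') O'') (_ : Finite (IsLocalRing.ResidueField O''))
      (_ : CharZero O'') (_ : Algebra O' O'') (_ : Module.Finite O' O'') (_ : IsLocalHom (algebraMap O' O'')),
      Function.Injective (algebraMap O' O'') ∧
      ∃ ρ : GaloisRepAdic O'',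
        (∀ (ℓ : ℕ) (hℓ : ℓ.Prime) (hℓM : ¬ ℓ ∣ M) (hℓS : ℓ ∉ (↑S : Set ℕ)),
          ∀ A : ValuationSubring (AlgebraicClosure ℚ), A.LiesOverPrime ℓ →
            ∀ σ : AlgebraicClosure ℚ ≃ₐ[ℚ] AlgebraicClosure ℚ, A.IsFrobeniusAt σ ℓ →
              LinearMap.charpoly (ρ.ρ σ) =
                X ^ 2 - C (algebraMap O' O'' ((iota.comp chig.rangeRestrict) (CuspForm.heckeAlgebra.T hℓ hℓM hℓS))) * X
                  + C ((ℓ : O''))) ∧
        (∀ q : ℕ, q.Prime → q ≠ lam → q ∣ M → ¬ q ^ 2 ∣ M →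
          ∀ A : ValuationSubring (AlgebraicClosure ℚ), A.LiesOverPrime q →
            ∀ σ : AlgebraicClosure ℚ ≃ₐ[ℚ] AlgebraicClosure ℚ, A.IsFrobeniusAt σ q →
              LinearMap.charpoly (ρ.ρ σ) = X ^ 2 - C ((q : O'') + 1) * X + C ((q : O'')) ∨
              LinearMap.charpoly (ρ.ρ σ) = X ^ 2 + C ((q : O'') + 1) * X + C ((q : O''))) :=
  NewformLocal.exists_rep_of_models (fun N p _ _ =>
    ⟨modelOfCongruence (congruenceProperty_all hinj N p), fun q hq hqp hqN hq2 =>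
      ⟨GaloisReps.unipotentAt_modelOfCongruence _ hq hqp (hTU N q hq hqN hq2),
        hTS N p _ q hq hqp hqN hq2⟩⟩)
    hg lam S O' hlamO' chig hchig iota hlamS hMS

end Fermat.Agent.Semistable

end
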