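import Fermat.Agent.Semistable.LocalTheory
import Fermat.Agent.FiniteFlat.Instance
import Fermat.Agent.Mazur.Eisenstein.Inputs
import Fermat.Agent.GaloisReps.UnipotentModel

/-!
# Inertia at a prime exactly dividing the level is unipotent on torsion
-/

set_option autoImplicit false
set_option synthInstance.maxHeartbeats 400000
set_option maxHeartbeats 1000000

noncomputable section

namespace Fermat.Agent.Semistable

open ModularCurve AlgebraicCurve
open Arith (QBar GQ)

variable {A : ValuationSubring QBar} {q : ℕ} [hq : Fact q.Prime] {M : ℕ} [NeZero M]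

theorem natCast_level_ne_zero (hA : A.LiesOverPrime q) (hqM : ¬ q ∣ M) : (M : Res A) ≠ 0 := by
  have := Arith.residueField_charP hA hq.out
  rwa [Ne, CharP.cast_eq_zero_iff (Res A) q]

theorem setup (hA : A.LiesOverPrime q) (hqM : ¬ q ∣ M) : Setup A M q where
  hA := hA
  hqM := hqM
  hM := natCast_level_ne_zero hA hqM
  good := (FiniteFlat.genusFF_residue_eq (natCast_level_ne_zero hA hqM)).ge

/-- Inertia at `q` is unipotent of level two on the torsion of order prime to `q` at level
`q M`. -/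
theorem inertia_sq_eq_zero (hA : A.LiesOverPrime q) (hqM : ¬ q ∣ M) {σ : GQ}
    (hσ : σ ∈ A.inertiaSubgroupIn ℚ) {m : ℕ} (hm : ¬ q ∣ m) {x : JZero (q * M)}
    (hx : m • x = 0) : σ • (σ • x - x) - (σ • x - x) = 0 := by
  have := Arith.residueField_charP hA hq.out
  have := Arith.residueField_isAlgClosed A
  have := isFunctionField_KM (A := A) (M := M) (natCast_level_ne_zero hA hqM)
  have h := setup (M := M) hA hqM
  have hm0 : m ≠ 0 := fun h0 => hm (h0 ▸ dvd_zero q)
  obtain ⟨⟨D, hD⟩, rfl⟩ := Pic0.mk_surjective x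
  have hmD := (QuotientAddGroup.eq_zero_iff
    (m • (⟨D, hD⟩ : Divisor.degZero (K := QBar) (F := FB (q * M))))).mp
      ((map_nsmul (QuotientAddGroup.mk' _) m _).trans hx)
  rw [AddSubgroup.mem_addSubgroupOf, AddSubmonoidClass.coe_nsmul] at hmD
  obtain ⟨f, hf, hord⟩ := hmD
  have key := h.inertia_sq_principal hσ hm0 hm hf (D := D) fun v => by
    rw [← hord v, Finsupp.smul_apply, nsmul_eq_mul]
  exact (QuotientAddGroup.eq_zero_iff _).mpr (by
    rw [AddSubgroup.mem_addSubgroupOf]
    exact key)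

/-- The torsion prime to `q` of `J₀(N)`, `q ∥ N`, is unipotent of level two under inertia. -/
theorem semistableProperty (N : ℕ) [NeZero N] {q : ℕ} (hq : q.Prime) (hqN : q ∣ N)
    (hq2 : ¬ q ^ 2 ∣ N) : Mazur.Eisenstein.SemistableProperty N q := by
  intro A hA σ hσ m x hm hx
  have := Fact.mk hq
  obtain ⟨M, rfl⟩ := hqN
  have : NeZero M := ⟨fun h => NeZero.ne (q * M) (by rw [h, mul_zero])⟩
  exact inertia_sq_eq_zero hA (fun h => hq2 (by rw [pow_two]; exact mul_dvd_mul_left q h)) hσ hm hx

theorem torsionUnipotentAt (N : ℕ) [NeZero N] {q : ℕ} (hq : q.Prime) (hqN : q ∣ N)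
    (hq2 : ¬ q ^ 2 ∣ N) : GaloisReps.TorsionUnipotentAt N q :=
  ⟨1, one_pos, fun m _ hm A hA τ hτ x hx => by
    rw [one_smul]; exact semistableProperty N hq hqN hq2 A hA τ hτ m x hm hx⟩

end Fermat.Agent.Semistable

end
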