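import Fermat.Agent.RT.MazurP.HeckeSeries

/-!
# The ratio `heckeNorm f / f ^ (l + 1)`

For a function with inertia-fixed coefficients at level `q M` the ratio has inertia-fixed
coefficients, and both its expansions are integral with nonzero reduction: no scaling is needed.
On torsion classes the ratio realises `T_l - (l + 1)`.
-/

set_option autoImplicit false
set_option synthInstance.maxHeartbeats 400000
set_option linter.style.haveILetI false

noncomputable section

namespace Fermat.Agent.Semistable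

open AlgebraicCurve ModularCurve Fermat.Agent.RT.Mazur Fermat.Agent.RT.MazurP
open Arith (QBar GQ)

theorem isGUnit_qExpand {A : ValuationSubring QBar} (l : ℕ) [NeZero l] {x : LSer}
    (hx : IsGUnit A x) : IsGUnit A (qExpand QBar l x) := by
  obtain ⟨h, hne⟩ := hx
  exact ⟨qExpand_mem_locS l h, by rw [redL_qExpand l h]; exact (map_ne_zero _).mpr hne⟩

/-- The image of a unit by the product is a unit. -/
theorem isGUnit_heckeProd {A : ValuationSubring QBar} {l : ℕ} [NeZero l] {ζ : QBarˣ}
    (hζ : ζ ^ l = 1) {x : LSer} (hx : IsGUnit A x) : IsGUnit A (heckeProd l ζ x) := by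
  obtain ⟨h, hne⟩ := hx
  obtain ⟨h', e⟩ := heckeProd_mem_locS hζ h
  exact ⟨h', by rw [e]; exact heckeProd_ne_zero l _ hne⟩

section Ratio

variable {A : ValuationSubring QBar} {q : ℕ} [hq : Fact q.Prime] {M : ℕ} [NeZero M]
  {l : ℕ} [NeZero l]

/-- The ratio has inertia-fixed coefficients. -/
theorem inertiaFixed_heckeRatio {N : ℕ} [NeZero N] (hl : l.Prime) (hN : ¬ l ∣ N) {f : FB N}
    (hfix : InertiaFixed A (f : LSer)) :
    InertiaFixed A ((heckeNorm N l f / f ^ (l + 1) : FB N) : LSer) := by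
  intro τ hτ
  have e : galF N τ f = f := Subtype.ext ((coe_arithmeticRingAut τ f).trans (hfix τ hτ))
  have e' : galF N τ (heckeNorm N l f / f ^ (l + 1)) = heckeNorm N l f / f ^ (l + 1) := by
    rw [map_div₀, map_pow, ← heckeNorm_galF hl hN, e]
  exact (coe_arithmeticRingAut τ _).symm.trans (congrArg Subtype.val e')

/-- Both expansions of the ratio are integral with nonzero reduction. -/
theorem isGUnit_iota2_heckeRatio (hA : A.LiesOverPrime q) (hqM : ¬ q ∣ M) (hl : l.Prime)
    (hN : ¬ l ∣ q * M) {f : FB (q * M)} (hf : f ≠ 0) (hfix : InertiaFixed A (f : LSer))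
    (s : Fin 2) :
    IsGUnit A (iota2 M q hqM s (heckeNorm (q * M) l f / f ^ (l + 1))) := by
  obtain ⟨ζ, hζ⟩ := exists_primitive hl hN
  set x := iota2 M q hqM s f with hxdef
  have hxfix : InertiaFixed A x := by
    intro τ hτ
    have e : galF (q * M) τ f = f :=
      Subtype.ext ((coe_arithmeticRingAut τ f).trans (hfix τ hτ))
    fin_cases s
    · exact hfix τ hτ
    · show coeffMap (τ : QBar →+* QBar) (wEquiv q M hqM f : LSer) = (wEquiv q M hqM f : LSer)
      rw [← coe_arithmeticRingAut, ← wEquiv_galois]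
      exact congrArg (fun y => (wEquiv q M hqM y : LSer)) e
  obtain ⟨n, hn⟩ := exists_zpow_isGUnit hA hq.out (iota2_fracS M q hqM s f)
    ((_root_.map_ne_zero _).mpr hf) hxfix
  set c := (q : QBar) ^ (-n) with hc
  have hc0 : c ≠ 0 := zpow_ne_zero _ (Nat.cast_ne_zero.mpr hq.out.ne_zero)
  refine isGUnit_of_qExpand (l := l) hA hq.out (iota2_fracS M q hqM s _) ?_
  have h1 := isGUnit_heckeProd hζ.pow_eq_one hn
  have h2 := (isGUnit_qExpand l hn).pow (l + 1)
  convert h1.mul h2.inv using 1
  rw [map_div₀, map_pow, map_div₀, map_pow, qExpand_iota2_heckeNorm q M l hqM hl hN s hζ,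
    ← hxdef, ← div_eq_mul_inv, map_mul (heckeProd l ζ), map_mul (qExpand QBar l), algebraMap_eq_C,
    heckeProd_C, qExpand_C, mul_pow, ← map_pow (qExpand QBar l), ← map_pow HahnSeries.C,
    mul_div_mul_left _ _
      ((_root_.map_ne_zero _).mpr (pow_ne_zero _ hc0))]

end Ratio

section Classes

variable {N : ℕ} [NeZero N] {m : ℕ} [NeZero m]

set_option maxHeartbeats 1000000 in
/-- `T_l - (l + 1)` on torsion classes, on functions. -/
theorem exists_divGrp_heckeRatio (l : ℕ) [NeZero l] (hl : l.Prime)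
    (f : JacTorsion.divGrp QBar (FB N) m) :
    ∃ f' : JacTorsion.divGrp QBar (FB N) m,
      ((f' : (FB N)ˣ) : FB N) =
        heckeNorm N l ((f : (FB N)ˣ) : FB N) / ((f : (FB N)ˣ) : FB N) ^ (l + 1) ∧
      (JacTorsion.toTorsion (Additive.ofMul f') : JZero N) =
        heckeOperatorBar N ⟨l, hl⟩ (JacTorsion.toTorsion (Additive.ofMul f) : JZero N) -
          ((l : ℤ) + 1) • (JacTorsion.toTorsion (Additive.ofMul f) : JZero N) := by
  have hin := FF.heckeInputsAlong QBar N l
  haveI := hin.snd.snd.fst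
  show ∃ f' : JacTorsion.divGrp QBar (FB N) m,
      ((f' : (FB N)ˣ) : FB N) =
        heckeNorm N l ((f : (FB N)ˣ) : FB N) / ((f : (FB N)ˣ) : FB N) ^ (l + 1) ∧
      (JacTorsion.toTorsion (Additive.ofMul f') : JZero N) =
        heckeOperatorAlong QBar N l (JacTorsion.toTorsion (Additive.ofMul f) : JZero N) -
          ((l : ℤ) + 1) • (JacTorsion.toTorsion (Additive.ofMul f) : JZero N)
  rw [heckeOperatorAlong, dif_pos hin]
  obtain ⟨g, hg, htor⟩ := GaloisReps.correspondence_toTorsion (heckeBetaBar QBar N l)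
    (heckeAlphaBar QBar N l) hin.snd.fst hin.fst hin.snd.snd.snd.snd.1
    hin.snd.snd.snd.fst hin.snd.snd.snd.snd.2 f
  refine ⟨g / f ^ (l + 1), ?_, ?_⟩
  · have hg' : ((g : (FB N)ˣ) : FB N) = heckeNorm N l ((f : (FB N)ˣ) : FB N) := hg
    rw [← hg']
    simp
  · have e : JacTorsion.toTorsion (Additive.ofMul (g / f ^ (l + 1))) =
        JacTorsion.toTorsion (Additive.ofMul g) -
          ((l : ℤ) + 1) • JacTorsion.toTorsion (Additive.ofMul f) := by
      rw [ofMul_div, ofMul_pow, map_sub, map_nsmul, ← natCast_zsmul]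
      push_cast
      rfl
    rw [e, AddSubgroup.coe_sub, AddSubgroup.coe_zsmul, htor]
    rfl

end Classes

end Fermat.Agent.Semistable

end
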