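import Mathlib
import Fermat.Agent.EichlerShimura.Equivariance
import Fermat.Agent.ModFun.CuspPlaces
import Fermat.Agent.RT.Mazur.Rational
import Fermat.Agent.Semistable.Spaces

/-!
# Divisor classes of the residual curve fixed by the square of Frobenius

A semilinear automorphism fixing a place and a transcendental function, whose powers fix only
finitely many constants, fixes only finitely many divisor classes of degree zero.
-/

set_option autoImplicit false

noncomputable section

open AlgebraicCurve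

namespace Fermat.Agent.Semistable

section Generic

variable {K F : Type*} [Field K] [Field F] [Algebra K F] [FF.IsFunctionField K F] [IsAlgClosed K]
  (g : SemilinearAut K F)

/-- A fixed class is that of a fixed effective divisor of degree at most the genus. -/
theorem exists_fixed_effective {P₀ : Place K F} (hP₀ : g • P₀ = P₀) {x : Pic0 K F}
    (hx : g • x = x) :
    ∃ E : Divisor K F, 0 ≤ E ∧ Divisor.degree E ≤ genusFF K F ∧ g • E = E ∧
      ∃ h, Pic0.mk ⟨E - Finsupp.single P₀ (Divisor.degree E), h⟩ = x := by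
  classical
  obtain ⟨⟨D, hD⟩, hmk, hfix⟩ := RT.Mazur.exists_fixed_divisor {g}
    (P₀ := P₀) (by rintro _ rfl; exact hP₀) (x := x) (by rintro _ rfl; exact hx)
  replace hfix : g • D = D := hfix g rfl
  have hD0 := Divisor.mem_degZero.mp hD
  have hdegP : ∀ n : ℕ, Divisor.degree (Finsupp.single P₀ (n : ℤ)) = n := fun n => by
    rw [FiniteFlat.degree_single_one]
  have hgen : 1 ≤ FF.ell K (D + Finsupp.single P₀ (genusFF K F : ℤ)) := by
    have h := FF.riemann_inequality (D + Finsupp.single P₀ (genusFF K F : ℤ))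
    rw [map_add, hD0, hdegP, FF.ell_zero] at h
    omega
  have hex : ∃ n : ℕ, 1 ≤ FF.ell K (D + Finsupp.single P₀ (n : ℤ)) := ⟨_, hgen⟩
  set n := Nat.find hex with hn
  set E := D + Finsupp.single P₀ (n : ℤ) with hE
  have hEdeg : Divisor.degree E = n := by rw [hE, map_add, hD0, hdegP, zero_add]
  have h1 : FF.ell K E = 1 := by
    refine le_antisymm ?_ (Nat.find_spec hex)
    rcases Nat.eq_zero_or_pos n with h0 | hpos
    · exact FiniteFlat.ell_le_one_of_degree_eq_zero (by rw [hEdeg, h0, Nat.cast_zero])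
    · obtain ⟨m, hm⟩ := Nat.exists_eq_add_of_le hpos
      have hlt := Nat.find_min hex (m := m) (by omega)
      have hle : D + Finsupp.single P₀ (m : ℤ) ≤ E := by
        rw [hE, add_le_add_iff_left]
        exact Finsupp.single_le_single.mpr (by omega)
      have h := FF.ell_le_of_le hle
      rw [hEdeg, map_add, hD0, hdegP] at h
      omega
  obtain ⟨u, hu, heff⟩ := FF.exists_ne_zero_of_ell_pos (D := E) (by omega)
  have hgu : g • u ≠ 0 := (map_ne_zero (SemilinearAut.toRingAut g)).mpr hu
  have hgdiv : g • FF.div K u = FF.div K (g • u) := Finsupp.ext fun v => by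
    rw [SemilinearAut.divisor_smul_apply, FF.div_apply, FF.div_apply]
    have h := SemilinearAut.ord_smul g (g⁻¹ • v) u
    rw [smul_inv_smul] at h
    exact h.symm
  have hgE : g • E = E := by rw [hE, smul_add, hfix, SemilinearAut.smul_single, hP₀]
  have hpos : (0 : Divisor K F) ≤ g • (E + FF.div K u) := Finsupp.le_def.mpr fun v => by
    rw [SemilinearAut.divisor_smul_apply]
    exact Finsupp.le_def.mp heff _
  have hEu : Divisor.degree (E + FF.div K u) = n := by
    rw [map_add, hEdeg, FF.degree_div, add_zero]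
  refine ⟨E + FF.div K u, heff, ?_, ?_, ?_, ?_⟩
  · rw [hEu, Nat.cast_le]
    exact Nat.find_le hgen
  · refine FiniteFlat.eq_of_ell_eq_one heff hpos (by rw [FF.ell_add_div hu, h1])
      (f := g • u * u⁻¹) ?_
    rw [FF.div_mul hgu (inv_ne_zero hu), FF.div_inv, smul_add, hgE, hgdiv]
    abel
  · rw [Divisor.mem_degZero, map_sub, hEu, hdegP, sub_self]
  · rw [← hmk]
    refine (QuotientAddGroup.eq_iff_sub_mem (N := (Divisor.principal (K := K)
      (F := F)).addSubgroupOf (Divisor.degZero (K := K) (F := F)))).mpr ?_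
    rw [AddSubgroup.mem_addSubgroupOf, AddSubgroupClass.coe_sub]
    refine ⟨u, hu, fun v => ?_⟩
    show (E + FF.div K u - Finsupp.single P₀ (Divisor.degree (E + FF.div K u)) - D) v = v.ord u
    rw [hEu, hE, ← FF.div_apply (K := K) u v]
    refine DFunLike.congr_fun ?_ v
    abel

omit [FF.IsFunctionField K F] [IsAlgClosed K] in
theorem pow_smul_eq_self {α : Type*} [MulAction (SemilinearAut K F) α] {x : α} (h : g • x = x)
    (k : ℕ) : g ^ k • x = x := by
  induction k with
  | zero => rw [pow_zero, one_smul]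
  | succ k ih => rw [pow_succ, mul_smul, h, ih]

variable {t : F} (ht : Transcendental K t) (hgt : g • t = t)
  (hfin : ∀ k : ℕ, 0 < k → {c : K | SemilinearAut.baseAut (g ^ k) c = c}.Finite)
include ht hgt hfin

/-- Only finitely many places are fixed by a power. -/
theorem finite_fixed_places {k : ℕ} (hk : 0 < k) : {P : Place K F | g ^ k • P = P}.Finite := by
  classical
  refine ((FF.div K t).support.finite_toSet.union ((hfin k hk).biUnion fun c _ =>
    (FF.div K (t - algebraMap K F c)).support.finite_toSet)).subset fun P (hP : g ^ k • P = P) => ?_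
  rcases eq_or_ne (P.ord t) 0 with h0 | h0
  swap
  · exact Or.inl (Finset.mem_coe.mpr (Finsupp.mem_support_iff.mpr (by rwa [FF.div_apply])))
  refine Or.inr ?_
  obtain ⟨c, hc⟩ := ModFun.exists_sub_mem_ordGe_one P ((FF.mem_iff P).mpr (Or.inr h0.ge))
  have hne : t - algebraMap K F c ≠ 0 := fun h =>
    ht (by rw [sub_eq_zero.mp h]; exact isAlgebraic_algebraMap c)
  have hord := FF.le_ord_of_mem_ordGe P hne hc
  have hpos : P.ord (t - algebraMap K F (SemilinearAut.baseAut (g ^ k) c)) =
      P.ord (t - algebraMap K F c) := by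
    have h := SemilinearAut.ord_smul (g ^ k) P (t - algebraMap K F c)
    rwa [hP, smul_sub, pow_smul_eq_self g hgt k, SemilinearAut.smul_algebraMap] at h
  have hfix : SemilinearAut.baseAut (g ^ k) c = c := by
    by_contra hne'
    have h2 := sub_mem (FF.mem_ordGe_of_le P (n := 1) (hord.trans hpos.ge)) hc
    rw [sub_sub_sub_cancel_left, ← map_sub] at h2
    have h3 := FF.le_ord_of_mem_ordGe P ((map_ne_zero _).mpr (sub_ne_zero.mpr (Ne.symm hne'))) h2
    rw [FF.ord_algebraMap] at h3
    omega
  simp only [Set.mem_iUnion]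
  exact ⟨c, hfix, Finset.mem_coe.mpr (Finsupp.mem_support_iff.mpr (by rw [FF.div_apply]; omega))⟩

/-- Only finitely many classes are fixed. -/
theorem finite_fixed_classes {P₀ : Place K F} (hP₀ : g • P₀ = P₀) :
    {x : Pic0 K F | g • x = x}.Finite := by
  classical
  set G := genusFF K F
  have hS := finite_fixed_places g ht hgt hfin (Nat.factorial_pos G)
  set T : Finset (Divisor K F) :=
    hS.toFinset.finsupp fun _ => Finset.Icc (0 : ℤ) (G : ℤ) with hT
  let cl : Divisor K F → Pic0 K F := fun E =>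
    Pic0.mk ⟨E - Finsupp.single P₀ (Divisor.degree E), Divisor.mem_degZero.mpr (by
      rw [map_sub, FiniteFlat.degree_single_one, sub_self])⟩
  refine ((T.finite_toSet).image cl).subset fun x hx => ?_
  obtain ⟨E, heff, hdeg, hfix, h, hmk⟩ := exists_fixed_effective g hP₀ hx
  refine ⟨E, Finset.mem_coe.mpr ?_, hmk⟩
  have hsum : Divisor.degree E = ∑ v ∈ E.support, E v := by
    rw [FF.degree_eq_sum E _ subset_rfl]
    exact Finset.sum_congr rfl fun v _ => by rw [FF.deg_eq_one, Nat.cast_one, mul_one]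
  rw [hT, Finset.mem_finsupp_iff]
  refine ⟨fun P hP => ?_, fun P _ => Finset.mem_Icc.mpr ⟨Finsupp.le_def.mp heff P, ?_⟩⟩
  · rw [Set.Finite.mem_toFinset]
    have hmem : ∀ i : ℕ, g ^ i • P ∈ E.support := fun i => by
      rw [Finsupp.mem_support_iff] at hP ⊢
      rwa [← pow_smul_eq_self g hfix i, SemilinearAut.divisor_smul_apply_smul]
    have hcard : (E.support.card : ℤ) ≤ G := by
      refine le_trans ?_ (hsum ▸ hdeg)
      rw [Finset.card_eq_sum_ones, Nat.cast_sum, Nat.cast_one]
      refine Finset.sum_le_sum fun v hv => ?_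
      have h1 := Finsupp.mem_support_iff.mp hv
      have h2 : (0 : ℤ) ≤ E v := Finsupp.le_def.mp heff v
      omega
    obtain ⟨i, hi, j, hj, hij, he⟩ := Finset.exists_ne_map_eq_of_card_lt_of_maps_to
      (s := Finset.range (G + 1)) (t := E.support) (f := fun i => g ^ i • P)
      (by rw [Finset.card_range]; omega) (fun i _ => hmem i)
    rw [Finset.mem_range] at hi hj
    wlog hlt : i < j generalizing i j
    · exact this j hj i hi hij.symm he.symm (by omega)
    have hfixP : g ^ (j - i) • P = P := by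
      have he' : g ^ i • g ^ (j - i) • P = g ^ i • P := by
        rw [← mul_smul, ← pow_add, show i + (j - i) = j by omega]
        exact he.symm
      exact MulAction.injective _ he'
    obtain ⟨d, hd⟩ := Nat.dvd_factorial (show 0 < j - i by omega) (show j - i ≤ G by omega)
    show g ^ G.factorial • P = P
    rw [hd, pow_mul]
    exact pow_smul_eq_self (g ^ (j - i)) hfixP d
  · rcases eq_or_ne (E P) 0 with h0 | h0
    · rw [h0]; exact Int.natCast_nonneg _
    refine le_trans ?_ hdeg
    rw [hsum]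
    exact Finset.single_le_sum (fun v _ => Finsupp.le_def.mp heff v)
      (Finsupp.mem_support_iff.mpr h0)

/-- A function with divisor divisible by `m` and with fixed class is, up to the `c`-th power,
an `m`-th power. -/
theorem exists_root_of_fixed {P₀ : Place K F} (hP₀ : g • P₀ = P₀) :
    ∃ c : ℕ, 0 < c ∧ ∀ m : ℕ, m ≠ 0 → ∀ r : F, r ≠ 0 →
      (∀ P : Place K F, (m : ℤ) ∣ P.ord r) →
      (∃ (a : K) (u : F), a ≠ 0 ∧ u ≠ 0 ∧ g • r = algebraMap K F a * r * u ^ m) →
      ∃ (b : K) (h : F), b ≠ 0 ∧ h ≠ 0 ∧ r ^ c = algebraMap K F b * h ^ m := by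
  classical
  let H : AddSubgroup (Pic0 K F) :=
    (DistribSMul.toAddMonoidHom (Pic0 K F) g).eqLocus (AddMonoidHom.id _)
  have : Finite H := (finite_fixed_classes g ht hgt hfin hP₀).to_subtype
  refine ⟨Nat.card H, Nat.card_pos, fun m hm r hr hdvd ⟨a, u, ha, hu, he⟩ => ?_⟩
  have hmZ : (m : ℤ) ≠ 0 := by exact_mod_cast hm
  set D : Divisor K F := (FF.div K r).mapRange (· / (m : ℤ)) (Int.zero_ediv _) with hDdef
  have hord : ∀ v : Place K F, v.ord r = (m : ℤ) * D v := fun v => by
    rw [hDdef, Finsupp.mapRange_apply, FF.div_apply, Int.mul_ediv_cancel' (hdvd v)]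
  have hD : Divisor.degree D = 0 := by
    have e : (m : ℤ) • D = FF.div K r := Finsupp.ext fun v => by
      rw [Finsupp.smul_apply, FF.div_apply, hord, smul_eq_mul]
    have h := congrArg Divisor.degree e
    rw [map_zsmul, FF.degree_div, smul_eq_mul] at h
    exact (mul_eq_zero.mp h).resolve_left hmZ
  set D₀ : Divisor.degZero (K := K) (F := F) := ⟨D, Divisor.mem_degZero.mpr hD⟩
  have hgD : ∀ v : Place K F, (g • D) v = D v + v.ord u := fun v => by
    refine mul_left_cancel₀ hmZ ?_
    rw [SemilinearAut.divisor_smul_apply, ← hord, mul_add, ← hord, ← FF.ord_pow]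
    have h := SemilinearAut.ord_smul g (g⁻¹ • v) r
    rw [smul_inv_smul, he] at h
    rw [← h, v.ord_mul (mul_ne_zero ((map_ne_zero _).mpr ha) hr) (pow_ne_zero _ hu),
      v.ord_mul ((map_ne_zero _).mpr ha) hr, FF.ord_algebraMap, zero_add]
  have hfix : Pic0.mk D₀ ∈ H := by
    show g • Pic0.mk D₀ = Pic0.mk D₀
    rw [SemilinearAut.pic0_smul_mk]
    refine (QuotientAddGroup.eq_iff_sub_mem (N := (Divisor.principal (K := K)
      (F := F)).addSubgroupOf (Divisor.degZero (K := K) (F := F)))).mpr ?_
    rw [AddSubgroup.mem_addSubgroupOf, AddSubgroupClass.coe_sub, SemilinearAut.coe_degZeroSMulHom]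
    exact ⟨u, hu, fun v => by rw [Finsupp.sub_apply, hgD]; exact add_sub_cancel_left _ _⟩
  have hc : Nat.card H • Pic0.mk D₀ = 0 := congrArg Subtype.val
    (card_nsmul_eq_zero' (x := (⟨_, hfix⟩ : H)))
  have hc' := (QuotientAddGroup.eq_zero_iff (Nat.card H • D₀)).mp hc
  rw [AddSubgroup.mem_addSubgroupOf, AddSubgroupClass.coe_nsmul] at hc'
  obtain ⟨h, hh, hdiv⟩ := hc'
  obtain ⟨b, hb⟩ : ∃ b : K, r ^ Nat.card H / h ^ m = algebraMap K F b := by
    refine FF.eq_algebraMap_of_ord_nonneg fun v => le_of_eq ?_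
    have h1 := hdiv v
    rw [Finsupp.smul_apply, nsmul_eq_mul] at h1
    rw [FF.ord_div v (pow_ne_zero _ hr) (pow_ne_zero _ hh), FF.ord_pow, FF.ord_pow, hord, ← h1]
    ring
  refine ⟨b, h, fun hb0 => ?_, hh, ?_⟩
  · rw [hb0, map_zero] at hb
    exact div_ne_zero (pow_ne_zero _ hr) (pow_ne_zero _ hh) hb
  · rw [← hb, div_mul_cancel₀ _ (pow_ne_zero _ hh)]

end Generic

section Modular

open ModularCurve
open Arith (QBar)

variable {A : ValuationSubring QBar} {M : ℕ} [NeZero M] {q : ℕ} [hq : Fact q.Prime]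
  [CharP (Res A) q] [FF.IsFunctionField (Res A) (KM A M)]

omit [NeZero M] [FF.IsFunctionField (Res A) (KM A M)] in
theorem one_lt_valInf_jK :
    1 < ModFun.valInf (Res A) ((KM A M).val (jK A M)) := by
  have hj : jqModC (Res A) ≠ 0 := fun h0 => by
    simpa [h0] using Igusa.order_jqModC (K := Res A)
  show 1 < ModFun.valInf (Res A) (jqModC (Res A))
  rw [ModFun.valInf_apply hj, Igusa.order_jqModC, ← WithZero.exp_zero, WithZero.exp_lt_exp]
  norm_num

/-- **The classes of the residual curve fixed by the square of Frobenius have bounded order.** -/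
theorem exists_root_of_frobSq_fixed :
    ∃ c : ℕ, 0 < c ∧ ∀ m : ℕ, m ≠ 0 → ∀ r : KM A M, r ≠ 0 →
      (∀ P : Place (Res A) (KM A M), (m : ℤ) ∣ P.ord r) →
      (∃ (a : Res A) (g : KM A M), a ≠ 0 ∧ g ≠ 0 ∧
        coeffMap (frobenius (Res A) q)
            (coeffMap (frobenius (Res A) q) (r : LaurentSeries (Res A))) =
          ((algebraMap (Res A) (KM A M) a * r * g ^ m : KM A M) : LaurentSeries (Res A))) →
      ∃ (b : Res A) (h : KM A M), b ≠ 0 ∧ h ≠ 0 ∧
        r ^ c = algebraMap (Res A) (KM A M) b * h ^ m := by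
  classical
  have : IsAlgClosed (Res A) := Arith.residueField_isAlgClosed A
  have : PerfectRing (Res A) q := PerfectField.toPerfectRing q
  set ψ : Res A ≃+* Res A := (frobeniusEquiv (Res A) q).trans (frobeniusEquiv (Res A) q)
  set g := EichlerShimura.coeffAut M ψ with hg
  have hψ : ∀ c : Res A, ψ c = c ^ q ^ 2 := fun c => by
    show (c ^ q) ^ q = _
    rw [← pow_mul, sq]
  have hbase : ∀ (k : ℕ) (c : Res A), SemilinearAut.baseAut (g ^ k) c = c ^ (q ^ 2) ^ k := by
    intro k
    induction k with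
    | zero => intro c; rw [pow_zero, pow_zero, pow_one]; rfl
    | succ k ih =>
      intro c
      rw [pow_succ, SemilinearAut.baseAut_mul, RingAut.mul_apply, show SemilinearAut.baseAut g c = ψ c
        from rfl, hψ, ih, ← pow_mul, ← pow_succ']
  have hfin : ∀ k : ℕ, 0 < k → {c : Res A | SemilinearAut.baseAut (g ^ k) c = c}.Finite := by
    intro k hk
    have h2 : 1 < (q ^ 2) ^ k :=
      Nat.one_lt_pow hk.ne' (Nat.one_lt_pow two_ne_zero hq.out.one_lt)
    refine ((Polynomial.X ^ ((q ^ 2) ^ k) - Polynomial.X : Polynomial (Res A)).roots.toFinset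
      |>.finite_toSet).subset fun c (hc : _ = c) => ?_
    rw [Finset.mem_coe, Multiset.mem_toFinset, Polynomial.mem_roots
      (FiniteField.X_pow_card_sub_X_ne_zero (Res A) h2), Polynomial.IsRoot, Polynomial.eval_sub,
      Polynomial.eval_pow, Polynomial.eval_X, ← hbase, hc, sub_self]
  have hgj : g • jK A M = jK A M := Subtype.ext (by
    rw [hg, EichlerShimura.coe_coeffAut_smul, coe_jK, coeffMap_jqModC])
  set P₀ := ModFun.placeOfEmb (ModFun.valInf (Res A)) (fun _ hc => ModFun.valInf_constant hc)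
    (KM A M).val (one_lt_valInf_jK (A := A) (M := M))
  have hP₀ : g • P₀ = P₀ := by
    refine Place.ext (SetLike.ext fun x => ?_)
    rw [SemilinearAut.smul_toValuationSubring,
      ValuationSubring.mem_pointwise_smul_iff_inv_smul_mem, ModFun.mem_placeOfEmb,
      ModFun.mem_placeOfEmb, ModFun.valInf_le_one_iff, ModFun.valInf_le_one_iff]
    have e : ((KM A M).val (g⁻¹ • x) : LaurentSeries (Res A)) =
        coeffMap ψ.symm.toRingHom (x : LaurentSeries (Res A)) := rfl
    refine forall₂_congr fun k _ => ?_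
    rw [e, coeffMap_coeff]
    exact map_eq_zero_iff _ ψ.symm.injective
  obtain ⟨c, hc, h⟩ := exists_root_of_fixed g (jK_transcendental A M) hgj hfin hP₀
  refine ⟨c, hc, fun m hm r hr hdvd ⟨a, u, ha, hu, he⟩ => h m hm r hr hdvd
    ⟨a, u, ha, hu, Subtype.ext ?_⟩⟩
  rw [hg, EichlerShimura.coe_coeffAut_smul, ← he, coeffMap_coeffMap]
  exact coeffMap_congr (RingHom.ext fun z => rfl) _

end Modular

end Fermat.Agent.Semistable

end
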