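import Fermat.Agent.Semistable.Levels
import Fermat.Agent.Semistable.GaloisAction
import Fermat.Agent.Semistable.Basis
import Fermat.Agent.FF.Along

/-!
# From level `q M` to a multiple `q M'`

The inclusion of function fields commutes with both expansions and with Galois; pulling back does
not lose more than a factor equal to its degree.
-/

set_option autoImplicit false

noncomputable section

namespace Fermat.Agent.Semistable

open ModularCurve AlgebraicCurve
open Arith (QBar GQ)

variable {A : ValuationSubring QBar} {M M' : ℕ} [NeZero M] [NeZero M'] {q : ℕ} [hq : Fact q.Prime]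

theorem fb_le_of_dvd {N N' : ℕ} [NeZero N] [NeZero N'] (hN : N ∣ N') : FB N ≤ FB N' := by
  rw [fb_eq_adjoin N, IntermediateField.adjoin_le_iff]
  rintro _ ⟨d, rfl⟩
  exact gen_mem N' ⟨d.1, d.2.trans hN⟩

variable (q) in
/-- Pull back from level `q M` to level `q M'`. -/
def lvlUp (hMM : M ∣ M') : FB (q * M) →ₐ[QBar] FB (q * M') :=
  IntermediateField.inclusion (fb_le_of_dvd (mul_dvd_mul_left q hMM))

theorem coe_lvlUp (hMM : M ∣ M') (x : FB (q * M)) :
    ((lvlUp q hMM x : FB (q * M')) : LSer) = (x : LSer) :=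
  IntermediateField.coe_inclusion (fb_le_of_dvd (mul_dvd_mul_left q hMM)) x

theorem wEquiv_lvlUp (hMM : M ∣ M') (hqM : ¬ q ∣ M) (hqM' : ¬ q ∣ M') (x : FB (q * M)) :
    wEquiv q M' hqM' (lvlUp q hMM x) = lvlUp q hMM (wEquiv q M hqM x) := by
  have h : (wEquiv q M' hqM').toAlgHom.toRingHom.comp (lvlUp q hMM).toRingHom =
      (lvlUp q hMM).toRingHom.comp (wEquiv q M hqM).toAlgHom.toRingHom := by
    refine fb_ringHom_ext (fun a => ?_) fun d => ?_
    · show wEquiv q M' hqM' (lvlUp q hMM (algebraMap QBar _ a)) =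
        lvlUp q hMM (wEquiv q M hqM (algebraMap QBar _ a))
      rw [AlgHom.commutes, AlgEquiv.commutes, AlgEquiv.commutes, AlgHom.commutes]
    · show wEquiv q M' hqM' (lvlUp q hMM (genF _ d)) = lvlUp q hMM (wEquiv q M hqM (genF _ d))
      have e : lvlUp q hMM (genF _ d) =
          genF (q * M') ⟨d.1, d.2.trans (mul_dvd_mul_left q hMM)⟩ :=
        Subtype.ext (by rw [coe_lvlUp]; rfl)
      rw [e, wEquiv_gen, wEquiv_gen]
      exact Subtype.ext (by rw [coe_lvlUp]; rfl)
  exact DFunLike.congr_fun h x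

theorem iota2_lvlUp (hMM : M ∣ M') (hqM : ¬ q ∣ M) (hqM' : ¬ q ∣ M') (s : Fin 2)
    (x : FB (q * M)) : iota2 M' q hqM' s (lvlUp q hMM x) = iota2 M q hqM s x := by
  fin_cases s
  · exact coe_lvlUp hMM x
  · show iota2 M' q hqM' 1 _ = iota2 M q hqM 1 x
    rw [iota2_one, iota2_one, wEquiv_lvlUp hMM hqM, coe_lvlUp]

theorem lvlUp_mem_loc2 (hMM : M ∣ M') (hqM : ¬ q ∣ M) (hqM' : ¬ q ∣ M')
    (x : loc2 A (iota2 M q hqM)) :
    ∃ h : lvlUp q hMM x.1 ∈ loc2 A (iota2 M' q hqM'),
      ∀ s, red2 A (iota2 M' q hqM') ⟨_, h⟩ s = red2 A (iota2 M q hqM) x s := by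
  refine ⟨(mem_loc2 _).mpr fun s => ?_, fun s => ?_⟩
  · rw [iota2_lvlUp hMM hqM]
    exact (mem_loc2 _).mp x.2 s
  · rw [red2_apply, red2_apply]
    exact redL_congr _ _ (iota2_lvlUp hMM hqM hqM' s x.1)

theorem galF_lvlUp (hMM : M ∣ M') (σ : GQ) (x : FB (q * M)) :
    galF (q * M') σ (lvlUp q hMM x) = lvlUp q hMM (galF (q * M) σ x) :=
  Subtype.ext (by
    rw [coe_lvlUp]
    show coeffMap (σ : QBar →+* QBar) ((lvlUp q hMM x : FB (q * M')) : LSer) = _
    rw [coe_lvlUp]
    rfl)

omit [NeZero M] [NeZero M'] hq in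
theorem km_le_of_dvd [NeZero M] [NeZero M'] (hMM : M ∣ M') : KM A M ≤ KM A M' :=
  full_degeneracyC_le _ hMM

section Generic

variable {K F F' : Type*} [Field K] [Field F] [Field F'] [Algebra K F] [Algebra K F']
  [IsAlgClosed K] [FF.IsFunctionField K F] [FF.IsFunctionField K F']

/-- Divisibility of orders is inherited by the pullback. -/
theorem dvd_ord_map (φ : F →ₐ[K] F') {m : ℤ} {f : F} (h : ∀ v : Place K F, m ∣ v.ord f)
    (w : Place K F') : m ∣ w.ord (φ f) := by
  letI := algebraAlong φ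
  haveI := isScalarTower_along φ
  haveI : Module.Finite F F' := FF.finiteAlong φ
  exact (w.ord_restrict (F := F) f).symm ▸ (h _).mul_left _

/-- An element becoming an `m`-th power has a fixed power which is an `m`-th power. -/
theorem exists_pow_eq_pow_of_map (φ : F →ₐ[K] F') :
    ∃ d : ℕ, 0 < d ∧ ∀ (m : ℕ) (z : F) (g : F'), φ z = g ^ m → ∃ g' : F, z ^ d = g' ^ m := by
  letI := algebraAlong φ
  haveI := isScalarTower_along φ
  haveI : Module.Finite F F' := FF.finiteAlong φ
  refine ⟨Module.finrank F F', Module.finrank_pos, fun m z g h => ⟨Algebra.norm F g, ?_⟩⟩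
  rw [← Algebra.norm_algebraMap (S := F') z, ← map_pow]
  exact congrArg _ h

end Generic

end Fermat.Agent.Semistable

end
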