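import Fermat.Agent.EichlerShimura.Equivariance
import Fermat.Agent.NewformLocal.Toric.NormRed
import Fermat.Agent.RT.Mazur.OrdersSides
import Fermat.Agent.RT.Mazur.Scale
import Fermat.Agent.Semistable.FixedClasses
import Fermat.Agent.Semistable.LevelChange
import Fermat.Agent.Semistable.LocalTheory
import Fermat.Agent.Semistable.Torsion

/-!
# Frobenius on classes with rational Kummer functions killed by both norms

If `div f` is divisible by `m`, the coefficients of `f` are fixed by inertia, both reductions are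
nonzero and both norms to level `M` are `m`-th powers, then the reductions are `m`-th powers up to
a bounded exponent; so a bounded multiple of the class is toric and Frobenius acts on it as `-q w`.
-/

set_option autoImplicit false
set_option synthInstance.maxHeartbeats 400000
set_option maxHeartbeats 1000000
set_option linter.unusedSectionVars false

noncomputable section

namespace Fermat.Agent.Semistable

open ModularCurve AlgebraicCurve
open Arith (QBar GQ)
open RT.Mazur (InertiaFixed IsGUnit redK)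
open NewformLocal.Toric (normUp)

variable {A : ValuationSubring QBar} {q : ℕ} [hq : Fact q.Prime] {M : ℕ} [NeZero M]

/-- An element whose `m`-th power has a nonzero reduction has a nonzero reduction. -/
theorem isGUnit_of_pow (hA : A.LiesOverPrime q) {g : LSer} (hg : g ∈ fracS A) {m : ℕ} (hm : m ≠ 0)
    (h : IsGUnit A (g ^ m)) : IsGUnit A g := by
  have hg0 : g ≠ 0 := fun h0 => h.ne_zero (by rw [h0, zero_pow hm])
  obtain ⟨c, hc, hcg, hne⟩ := exists_scale hA hq.out hg hg0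
  have h1 : IsGUnit A (algebraMap QBar LSer c * g) := ⟨hcg, hne⟩
  have h2 : IsGUnit A (algebraMap QBar LSer (c ^ m) * g ^ m) := by
    rw [map_pow, ← mul_pow]; exact h1.pow m
  have hv := RT.Mazur.valuation_eq_of_isGUnit (a := (1 : QBar)) (b := c ^ m)
    (by rw [map_one, one_mul]; exact h) h2
  rw [map_one, map_pow] at hv
  have hv1 : A.valuation c = 1 := (pow_eq_one_iff.mp hv.symm).resolve_right hm
  have hvi : A.valuation c⁻¹ = 1 := by rw [map_inv₀, hv1, inv_one]
  have hu := RT.Mazur.isGUnit_algebraMap ((A.valuation_le_one_iff _).mp hvi.le)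
    fun hn => (A.mem_nonunits_iff.mp hn).ne hvi
  have := hu.mul h1
  rwa [← mul_assoc, ← map_mul, inv_mul_cancel₀ hc, map_one, one_mul] at this

/-- The reduction of a norm which is an `m`-th power. -/
theorem exists_red_norm [CharP (Res A) q] [FF.IsFunctionField (Res A) (KM A M)] (h : Setup A M q)
    {m : ℕ} (hm : m ≠ 0) (F : loc2 A (iota2 M q h.hqM))
    (hne : ∀ s, red2 A (iota2 M q h.hqM) F s ≠ 0)
    (hN : ∃ g : FB M, normUp q M (F : FB (q * M)) = g ^ m) :
    ∃ z : LaurentSeries (Res A), z ∈ KM A M ∧ z ≠ 0 ∧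
      red2 A (iota2 M q h.hqM) F 0 * coeffMap (frobenius (Res A) q)
        (red2 A (iota2 M q h.hqM) F 1) = z ^ m := by
  obtain ⟨g, hg⟩ := hN
  have hF := (mem_loc2_iff M q h.hqM).mp F.2
  have ha : algebraMap QBar LSer 1 * ((F : FB (q * M)) : LSer) ∈ locS A := by
    rw [map_one, one_mul]; exact hF.1
  have hb : algebraMap QBar LSer 1 *
      (wEquiv q M h.hqM (F : FB (q * M)) : LSer) ∈ locS A := by
    rw [map_one, one_mul]; exact hF.2
  have e0 : redL A ⟨_, ha⟩ = red2 A (iota2 M q h.hqM) F 0 := by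
    rw [red2_apply]; exact redL_congr _ _ (by rw [map_one, one_mul]; rfl)
  have e1 : redL A ⟨_, hb⟩ = red2 A (iota2 M q h.hqM) F 1 := by
    rw [red2_apply]; exact redL_congr _ _ (by rw [map_one, one_mul]; rfl)
  obtain ⟨hN', hr⟩ := NewformLocal.Toric.redL_normUp h.hqM h.hA ha hb (by rw [e0]; exact hne 0)
    (by rw [e1]; exact hne 1)
  rw [e0, e1] at hr
  have hNg : algebraMap QBar LSer (1 * 1 ^ q) * (normUp q M (F : FB (q * M)) : LSer) =
      (g : LSer) ^ m := by
    rw [one_pow, mul_one, map_one, one_mul, hg]; rfl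
  have hgu : IsGUnit A ((g : LSer) ^ m) := by
    rw [← hNg]
    exact ⟨hN', by rw [hr]; exact mul_ne_zero (hne 0) ((_root_.map_ne_zero _).mpr (hne 1))⟩
  obtain ⟨hgl, hgne⟩ := isGUnit_of_pow h.hA (mem_fracS_of_mem g) hm hgu
  refine ⟨redL A ⟨(g : LSer), hgl⟩, ?_, hgne, ?_⟩
  · exact red1_mem_KM M h.hM ⟨g, (mem_loc1 M).mpr hgl⟩
  · rw [← hr, ← map_pow]
    exact redL_congr _ _ hNg

/-- Orders of reductions of inertia-fixed Kummer functions. -/
def OrdersDvd (A : ValuationSubring QBar) (M q : ℕ) [NeZero M] [Fact q.Prime] [CharP (Res A) q]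
    (hqM : ¬ q ∣ M) (hM : (M : Res A) ≠ 0) : Prop :=
  ∀ m : ℕ, 0 < m → ∀ F : loc2 A (iota2 M q hqM), InertiaFixed A ((F : FB (q * M)) : LSer) →
    (∀ v : Place QBar (FB (q * M)), (m : ℤ) ∣ v.ord (F : FB (q * M))) →
    (∀ s, red2 A (iota2 M q hqM) F s ≠ 0) → ∀ (s : Fin 2) (P : Place (Res A) (KM A M)),
      (m : ℤ) ∣ P.ord (redK hM F s)

/-- Both reductions of a fixed Kummer function with norms which are powers have a bounded power
which is an `m`-th power up to constants. -/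
theorem exists_red_root [CharP (Res A) q] [FF.IsFunctionField (Res A) (KM A M)]
    (h : Setup A M q) {M' : ℕ} [NeZero M'] [FF.IsFunctionField (Res A) (KM A M')] (hMM : M ∣ M')
    (hqM' : ¬ q ∣ M') (hM' : (M' : Res A) ≠ 0) (hO : OrdersDvd A M' q hqM' hM') :
    ∃ c : ℕ, 0 < c ∧ ∀ m : ℕ, m ≠ 0 → ∀ F : loc2 A (iota2 M q h.hqM),
      InertiaFixed A ((F : FB (q * M)) : LSer) →
      (∀ v : Place QBar (FB (q * M)), (m : ℤ) ∣ v.ord (F : FB (q * M))) →
      (∀ s, red2 A (iota2 M q h.hqM) F s ≠ 0) →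
      (∃ g : FB M, normUp q M (F : FB (q * M)) = g ^ m) →
      (∃ g : FB M, normUp q M (wEquiv q M h.hqM (F : FB (q * M))) = g ^ m) →
      ∀ s, ∃ (b : Res A) (z : KM A M'), b ≠ 0 ∧ z ≠ 0 ∧
        red2 A (iota2 M q h.hqM) F s ^ c =
          algebraMap (Res A) (LaurentSeries (Res A)) b * (z : LaurentSeries (Res A)) ^ m := by
  have := Arith.residueField_isAlgClosed A
  have : PerfectRing (Res A) q := PerfectField.toPerfectRing q
  obtain ⟨c, hc, hroot⟩ := exists_root_of_frobSq_fixed (A := A) (M := M') (q := q)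
  refine ⟨c, hc, fun m hm F hfix hdiv hne hN hN' s => ?_⟩
  obtain ⟨z, hzK, hz0, hz⟩ := exists_red_norm h hm F hne hN
  obtain ⟨hw, hwr⟩ := h.wEquiv_red2 F
  obtain ⟨z', hz'K, hz'0, hz'⟩ := exists_red_norm h hm ⟨_, hw⟩
    (fun s => by rw [hwr]; fin_cases s <;> simp [hne]) hN'
  rw [hwr] at hz'
  simp only [Matrix.cons_val_zero, Matrix.cons_val_one, Matrix.cons_val_fin_one] at hz'
  set φ := coeffMap (frobenius (Res A) q) with hφ
  set ψ : Res A ≃+* Res A := frobeniusEquiv (Res A) q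
  have hFr : ∀ y ∈ KM A M, φ y ∈ KM A M := fun y hy => by
    have e : φ y = ((EichlerShimura.coeffAut M ψ • (⟨y, hy⟩ : KM A M) : KM A M) :
        LaurentSeries (Res A)) := by
      rw [EichlerShimura.coe_coeffAut_smul]
      exact coeffMap_congr (RingHom.ext fun _ => rfl) _
    rw [e]
    exact SetLike.coe_mem _
  -- the square of Frobenius moves each reduction by an `m`-th power
  have key : ∀ (a b x y : LaurentSeries (Res A)), b ≠ 0 → x ∈ KM A M → x ≠ 0 → y ∈ KM A M →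
      y ≠ 0 → a * φ b = x ^ m → b * φ a = y ^ m →
      ∃ u : KM A M', u ≠ 0 ∧ φ (φ a) = a * (u : LaurentSeries (Res A)) ^ m := by
    intro a b x y hb hx hx0 hy hy0 h1 h2
    have hmem := km_le_of_dvd (A := A) hMM
    refine ⟨⟨φ y / x, hmem (div_mem (hFr y hy) hx)⟩, fun h0 => ?_, ?_⟩
    · exact div_ne_zero ((_root_.map_ne_zero φ).mpr hy0) hx0 (congrArg Subtype.val h0)
    · have h3 : φ b * φ (φ a) = φ y ^ m := by rw [← map_mul, h2, map_pow]
      show φ (φ a) = a * (φ y / x) ^ m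
      rw [div_pow, mul_div_assoc', eq_div_iff (pow_ne_zero m hx0), ← h1, ← h3]
      ring
  obtain ⟨hF', hred'⟩ := lvlUp_mem_loc2 hMM h.hqM hqM' F
  have hne' : ∀ s, red2 A (iota2 M' q hqM') ⟨_, hF'⟩ s ≠ 0 := fun s => by rw [hred']; exact hne s
  have : FF.IsFunctionField QBar (FB (q * M)) := EichlerShimura.isFunctionField_bar
  have : FF.IsFunctionField QBar (FB (q * M')) := EichlerShimura.isFunctionField_bar
  have hdvd := hO m (Nat.pos_of_ne_zero hm) ⟨_, hF'⟩
    (fun τ hτ => by simpa only [coe_lvlUp] using hfix τ hτ)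
    (fun v => dvd_ord_map (lvlUp q hMM) hdiv v) hne' s
  have hrK : ((redK hM' (⟨_, hF'⟩ : loc2 A (iota2 M' q hqM')) s : KM A M') :
      LaurentSeries (Res A)) = red2 A (iota2 M q h.hqM) F s := by
    rw [RT.Mazur.coe_redK, hred']
  obtain ⟨u, hu0, hu⟩ : ∃ u : KM A M', u ≠ 0 ∧ φ (φ (red2 A (iota2 M q h.hqM) F s)) =
      red2 A (iota2 M q h.hqM) F s * (u : LaurentSeries (Res A)) ^ m := by
    fin_cases s
    · exact key _ _ z z' (hne 1) hzK hz0 hz'K hz'0 hz hz'
    · exact key _ _ z' z (hne 0) hz'K hz'0 hzK hz0 hz' hz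
  obtain ⟨b, w, hb, hw0, hbw⟩ := hroot m hm (redK hM' (⟨_, hF'⟩ : loc2 A (iota2 M' q hqM')) s)
    (fun h0 => hne s (by rw [← hrK, h0]; rfl)) hdvd ⟨1, u, one_ne_zero, hu0, by
      rw [map_one, one_mul, hrK]
      push_cast
      rw [hrK]
      exact hu⟩
  refine ⟨b, w, hb, hw0, ?_⟩
  have := congrArg Subtype.val hbw
  push_cast at this
  rw [hrK] at this
  exact this


section Generic

variable {K E : Type*} [Field K] [Field E] [Algebra K E] [FF.IsFunctionField K E] [IsAlgClosed K]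

/-- Functions with divisors differing by `m` times a principal one differ by an `m`-th power. -/
theorem exists_pow_of_ord {m : ℕ} (hm : m ≠ 0) {x g : E} (hx : x ≠ 0) (hg : g ≠ 0)
    (h : ∀ v : Place K E, v.ord x = (m : ℤ) * v.ord g) : ∃ G : E, x = G ^ m := by
  obtain ⟨b, hb⟩ : ∃ b : K, x / g ^ m = algebraMap K E b := by
    refine FF.eq_algebraMap_of_ord_nonneg fun v => le_of_eq ?_
    rw [FF.ord_div v hx (pow_ne_zero _ hg), FF.ord_pow, h, sub_self]
  obtain ⟨r, hr⟩ := IsAlgClosed.exists_pow_nat_eq b (Nat.pos_of_ne_zero hm)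
  exact ⟨algebraMap K E r * g, by rw [mul_pow, ← map_pow, hr, ← hb,
    div_mul_cancel₀ _ (pow_ne_zero _ hg)]⟩

end Generic

variable (A M q) in
/-- The conclusion on functions: after raising to the exponent `e`, the operator `op` turns a
fixed Kummer function with norms which are powers into an `m`-th power. -/
def PowerOn (hqM : ¬ q ∣ M) (op : FB (q * M) → FB (q * M)) (e : ℕ) : Prop :=
  ∀ m : ℕ, ¬ q ∣ m → ∀ F : loc2 A (iota2 M q hqM),
    InertiaFixed A ((F : FB (q * M)) : LSer) →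
    (∀ v : Place QBar (FB (q * M)), (m : ℤ) ∣ v.ord (F : FB (q * M))) →
    (∀ s, red2 A (iota2 M q hqM) F s ≠ 0) →
    (∃ g : FB M, normUp q M (F : FB (q * M)) = g ^ m) →
    (∃ g : FB M, normUp q M (wEquiv q M hqM (F : FB (q * M))) = g ^ m) →
    ∃ G : FB (q * M), op (F : FB (q * M)) ^ e = G ^ m

/-- Reduction of the bounded power to a function with constant reductions at level `q M'`. -/
theorem exists_kummer_split [CharP (Res A) q] [FF.IsFunctionField (Res A) (KM A M)]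
    {M' : ℕ} [NeZero M'] [FF.IsFunctionField (Res A) (KM A M')] (h : Setup A M q)
    (h' : Setup A M' q) (hMM : M ∣ M') (hO : OrdersDvd A M' q h'.hqM h'.hM) :
    ∃ c : ℕ, 0 < c ∧ ∀ m : ℕ, ¬ q ∣ m → ∀ F : loc2 A (iota2 M q h.hqM),
      InertiaFixed A ((F : FB (q * M)) : LSer) →
      (∀ v : Place QBar (FB (q * M)), (m : ℤ) ∣ v.ord (F : FB (q * M))) →
      (∀ s, red2 A (iota2 M q h.hqM) F s ≠ 0) →
      (∃ g : FB M, normUp q M (F : FB (q * M)) = g ^ m) →
      (∃ g : FB M, normUp q M (wEquiv q M h.hqM (F : FB (q * M))) = g ^ m) →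
      ∃ (D : Divisor QBar (FB (q * M'))) (F'' H : FB (q * M')) (a : Fin 2 → Res A),
        HasKummer h' D m a ∧ (∀ v, v.ord F'' = (m : ℤ) * D v) ∧ F'' ≠ 0 ∧ H ≠ 0 ∧
          lvlUp q hMM (F : FB (q * M)) ^ c = F'' * H ^ m := by
  obtain ⟨c, hc, hroot⟩ := exists_red_root h hMM h'.hqM h'.hM hO
  refine ⟨c, hc, fun m hmq F hfix hdiv hne hN hN' => ?_⟩
  have hm : m ≠ 0 := fun h0 => hmq (h0 ▸ dvd_zero q)
  choose b z hb hz hred using hroot m hm F hfix hdiv hne hN hN'
  obtain ⟨H, hH⟩ := red2_surjective (A := A) M' q h'.hqM h'.hM (z 0).2 (z 1).2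
  have hHs : ∀ s, red2 A (iota2 M' q h'.hqM) H s = (z s : LaurentSeries (Res A)) := fun s => by
    rw [hH]; fin_cases s <;> rfl
  have hHne : ∀ s, red2 A (iota2 M' q h'.hqM) H s ≠ 0 := fun s h0 =>
    hz s (Subtype.ext ((hHs s).symm.trans h0))
  have hH0 : (H : FB (q * M')) ≠ 0 := fun h0 => hHne 0 (by
    rw [show H = 0 from Subtype.ext h0, map_zero]; rfl)
  obtain ⟨hHi, hHir⟩ := inv_mem_loc2 (iota2 M' q h'.hqM) H hHne
  obtain ⟨hF', hF'r⟩ := lvlUp_mem_loc2 hMM h.hqM h'.hqM F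
  set F'' : loc2 A (iota2 M' q h'.hqM) := ⟨_, hF'⟩ ^ c * ⟨_, hHi⟩ ^ m with hF''
  have hF''r : ∀ s, red2 A (iota2 M' q h'.hqM) F'' s = algebraMap (Res A) _ (b s) := fun s => by
    rw [hF'', map_mul, map_pow, map_pow, Pi.mul_apply, Pi.pow_apply, Pi.pow_apply, hF'r, hHir,
      hHs, hred, inv_pow, mul_inv_cancel_right₀]
    exact pow_ne_zero _ fun h0 => hz s (Subtype.ext h0)
  have hF'0 : lvlUp q hMM (F : FB (q * M)) ≠ 0 := (_root_.map_ne_zero _).mpr fun h0 => hne 0 (by
    rw [show F = 0 from Subtype.ext h0, map_zero]; rfl)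
  have hcoe : (F'' : FB (q * M')) =
      lvlUp q hMM (F : FB (q * M)) ^ c * ((H : FB (q * M')) ^ m)⁻¹ := by
    rw [hF'', MulMemClass.coe_mul, SubmonoidClass.coe_pow, SubmonoidClass.coe_pow, inv_pow]
  have : FF.IsFunctionField QBar (FB (q * M)) := EichlerShimura.isFunctionField_bar
  have : FF.IsFunctionField QBar (FB (q * M')) := EichlerShimura.isFunctionField_bar
  have hF''0 : (F'' : FB (q * M')) ≠ 0 := by
    rw [hcoe]; exact mul_ne_zero (pow_ne_zero _ hF'0) (inv_ne_zero (pow_ne_zero _ hH0))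
  have hdvd : ∀ v : Place QBar (FB (q * M')), (m : ℤ) ∣ v.ord (F'' : FB (q * M')) := fun v => by
    rw [hcoe, v.ord_mul (pow_ne_zero _ hF'0) (inv_ne_zero (pow_ne_zero _ hH0)), v.ord_inv,
      FF.ord_pow, FF.ord_pow]
    exact dvd_add ((dvd_ord_map (lvlUp q hMM) hdiv v).mul_left _) (dvd_neg.mpr (dvd_mul_right _ _))
  set D : Divisor QBar (FB (q * M')) :=
    (FF.div QBar (F'' : FB (q * M'))).mapRange (· / (m : ℤ)) (Int.zero_ediv _)
  have hord : ∀ v, v.ord (F'' : FB (q * M')) = (m : ℤ) * D v := fun v => by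
    rw [Finsupp.mapRange_apply, FF.div_apply, Int.mul_ediv_cancel' (hdvd v)]
  refine ⟨D, F'', H, b, ⟨hb, F'', hord, hF''r⟩, hord, hF''0, hH0, ?_⟩
  rw [hcoe, inv_mul_cancel_right₀ (pow_ne_zero _ hH0)]

/-- An operator turning a Kummer function with constant reductions into a power does so, after a
bounded exponent, for fixed functions with norms which are powers. -/
theorem exists_powerOn [CharP (Res A) q] [FF.IsFunctionField (Res A) (KM A M)]
    {M' : ℕ} [NeZero M'] [FF.IsFunctionField (Res A) (KM A M')] (h : Setup A M q)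
    (h' : Setup A M' q) (hMM : M ∣ M') (hO : OrdersDvd A M' q h'.hqM h'.hM)
    (op : FB (q * M) →* FB (q * M)) (op' : FB (q * M') →* FB (q * M'))
    (hop : ∀ x, op' (lvlUp q hMM x) = lvlUp q hMM (op x))
    (hkum : ∀ (m : ℕ), m ≠ 0 → ¬ q ∣ m → ∀ (D : Divisor QBar (FB (q * M'))) (a : Fin 2 → Res A)
      (F : FB (q * M')), F ≠ 0 → (∀ v, v.ord F = (m : ℤ) * D v) → HasKummer h' D m a →
        ∃ G : FB (q * M'), op' F = G ^ m) :
    ∃ e : ℕ, 0 < e ∧ PowerOn A q M h.hqM op e := by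
  have : FF.IsFunctionField QBar (FB (q * M)) := EichlerShimura.isFunctionField_bar
  have : FF.IsFunctionField QBar (FB (q * M')) := EichlerShimura.isFunctionField_bar
  obtain ⟨c, hc, hsplit⟩ := exists_kummer_split h h' hMM hO
  obtain ⟨d, hd, hdown⟩ := exists_pow_eq_pow_of_map (lvlUp q hMM)
  refine ⟨c * d, Nat.mul_pos hc hd, fun m hmq F hfix hdiv hne hN hN' => ?_⟩
  obtain ⟨D, F'', H, a, hk, hord, hF''0, -, hsp⟩ := hsplit m hmq F hfix hdiv hne hN hN'
  obtain ⟨G, hG⟩ := hkum m (fun h0 => hmq (h0 ▸ dvd_zero q)) hmq D a F'' hF''0 hord hk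
  have : lvlUp q hMM (op (F : FB (q * M)) ^ c) = (G * op' H) ^ m := by
    rw [map_pow, ← hop, ← map_pow, hsp, map_mul, map_pow, hG, mul_pow]
  obtain ⟨g, hg⟩ := hdown m _ _ this
  exact ⟨g, by rw [pow_mul, hg]⟩

variable (M q) in
/-- `x ↦ σ σ x / x ^ (q ^ 2)`. -/
def sqOp (σ : GQ) : FB (q * M) →* FB (q * M) where
  toFun x := galF (q * M) σ (galF (q * M) σ x) * (x ^ (q ^ 2))⁻¹
  map_one' := by simp
  map_mul' x y := by simp only [map_mul, mul_pow, mul_inv]; ring

/-- `x ↦ σ x * (w x) ^ q`. -/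
def signOp (hqM : ¬ q ∣ M) (σ : GQ) : FB (q * M) →* FB (q * M) where
  toFun x := galF (q * M) σ x * wEquiv q M hqM x ^ q
  map_one' := by simp
  map_mul' x y := by simp only [map_mul, mul_pow]; ring

/-- **The square of Frobenius is `q ^ 2` up to a bounded exponent.** -/
theorem exists_powerOn_sqOp [CharP (Res A) q] [FF.IsFunctionField (Res A) (KM A M)]
    {M' : ℕ} [NeZero M'] [FF.IsFunctionField (Res A) (KM A M')] (h : Setup A M q)
    (h' : Setup A M' q) (hMM : M ∣ M') (hO : OrdersDvd A M' q h'.hqM h'.hM) {σ : GQ}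
    (hσ : A.IsFrobeniusAt σ q) : ∃ e : ℕ, 0 < e ∧ PowerOn A q M h.hqM (sqOp q M σ) e := by
  have : FF.IsFunctionField QBar (FB (q * M')) := EichlerShimura.isFunctionField_bar
  refine exists_powerOn h h' hMM hO (sqOp q M σ) (sqOp q M' σ) (fun x => ?_)
    fun m hm hmq D a F hF hord hk => ?_
  · show galF (q * M') σ (galF (q * M') σ (lvlUp q hMM x)) * (lvlUp q hMM x ^ (q ^ 2))⁻¹ =
      lvlUp q hMM (galF (q * M) σ (galF (q * M) σ x) * (x ^ (q ^ 2))⁻¹)
    rw [galF_lvlUp, galF_lvlUp, map_mul, map_inv₀, map_pow]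
  obtain ⟨g, hg, hgord⟩ := h'.frobenius_sq_principal hσ hm hmq hk
  have h2 : galF (q * M') σ (galF (q * M') σ F) ≠ 0 :=
    (_root_.map_ne_zero _).mpr ((_root_.map_ne_zero _).mpr hF)
  refine exists_pow_of_ord (K := QBar) hm (mul_ne_zero h2 (inv_ne_zero (pow_ne_zero _ hF))) hg fun v => ?_
  show v.ord (galF (q * M') σ (galF (q * M') σ F) * (F ^ (q ^ 2))⁻¹) = _
  rw [← hgord v, v.ord_mul h2 (inv_ne_zero (pow_ne_zero _ hF)), v.ord_inv, FF.ord_pow,
    ord_galF σ (ord_galF σ hord) v, hord v, Finsupp.sub_apply, Finsupp.smul_apply, nsmul_eq_mul]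
  ring

/-- **Frobenius is `-q w` up to a bounded exponent.** -/
theorem exists_powerOn_signOp [CharP (Res A) q] [FF.IsFunctionField (Res A) (KM A M)]
    {M' : ℕ} [NeZero M'] [FF.IsFunctionField (Res A) (KM A M')] (h : Setup A M q)
    (h' : Setup A M' q) (hMM : M ∣ M') (hO : OrdersDvd A M' q h'.hqM h'.hM) {σ : GQ}
    (hσ : A.IsFrobeniusAt σ q) :
    ∃ e : ℕ, 0 < e ∧ PowerOn A q M h.hqM (signOp h.hqM σ) e := by
  have : FF.IsFunctionField QBar (FB (q * M')) := EichlerShimura.isFunctionField_bar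
  refine exists_powerOn h h' hMM hO (signOp h.hqM σ) (signOp h'.hqM σ) (fun x => ?_)
    fun m hm hmq D a F hF hord hk => ?_
  · show galF (q * M') σ (lvlUp q hMM x) * wEquiv q M' h'.hqM (lvlUp q hMM x) ^ q =
      lvlUp q hMM (galF (q * M) σ x * wEquiv q M h.hqM x ^ q)
    rw [galF_lvlUp, wEquiv_lvlUp hMM h.hqM, map_mul, map_pow]
  obtain ⟨g, hg, hgord⟩ := h'.frobenius_add_wAut_principal hσ hm hmq hk
  have h1 : galF (q * M') σ F ≠ 0 := (_root_.map_ne_zero _).mpr hF
  have h2 : wEquiv q M' h'.hqM F ≠ 0 := (_root_.map_ne_zero _).mpr hF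
  refine exists_pow_of_ord (K := QBar) hm (mul_ne_zero h1 (pow_ne_zero _ h2)) hg fun v => ?_
  show v.ord (galF (q * M') σ F * wEquiv q M' h'.hqM F ^ q) = _
  rw [← hgord v, v.ord_mul h1 (pow_ne_zero _ h2), FF.ord_pow, ord_galF σ hord v,
    h'.ord_wEquiv v F, hord, Finsupp.add_apply, Finsupp.smul_apply, nsmul_eq_mul,
    SemilinearAut.divisor_smul_apply, SemilinearAut.divisor_smul_apply]
  ring

end Fermat.Agent.Semistable

end
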