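import Fermat.Agent.GaloisReps.UnipotentModel
import Fermat.Agent.NewformLocal.Toric.Homs
import Fermat.Agent.NewformLocal.Toric.Transfer

/-!
# The toric inputs on the model from statements on torsion points

A constant killing `σ² - q²`, or `σ - q U_q`, on the images of inertia fixed torsion points under a
Hecke operator disappears on the torsion free completed lattice; these images are killed by the two
degeneracy operators.
-/

set_option autoImplicit false
set_option maxHeartbeats 1600000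

noncomputable section

open ModularCurve CongruenceSubgroup

namespace Fermat.Agent.Semistable

open GaloisReps (AbsGal JTors torsionIso conjProperty latticeMat toFull galTors heckeTors
  modelOfCongruence CongruenceProperty FullHecke matIn)
open NewformLocal (toricOp levelPrimes)

/-- For a Hecke operator `t` away from `N` killing level `R = N / q`, a prime `ℓ` and a Frobenius
element, a constant
kills `σ ² y - q² y`, where `y = (T_ℓ - ℓ - 1) z`, for every torsion point `z` fixed by inertia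
whose homomorphism lies in the image of `t`. -/
def ToricTorsionAt (N p q : ℕ) [NeZero N] [Fact p.Prime] : Prop :=
  ∀ (R : ℕ) [NeZero R] (hR : R ∣ N), R * q = N →
    ∀ t : CuspForm.heckeAlgebra N 2 (levelPrimes N),
      (∀ f : CuspForm (Gamma0 R) 2, t.1 (Newforms.levelIncl hR f) = 0) →
      ∀ (ℓ : ℕ) (hℓ : ℓ.Prime), ¬ ℓ ∣ N * p →
        ∀ A : ValuationSubring (AlgebraicClosure ℚ), A.LiesOverPrime q →
          ∀ σ : AbsGal, A.IsFrobeniusAt σ q →
            ∃ c : ℕ, 0 < c ∧
              ∀ (n : ℕ) (z : JTors N p n) (u : Fin (2 * Gamma0.genus N) → ZMod (p ^ n)),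
                (∀ τ ∈ A.inertiaSubgroupIn ℚ, τ • (z : JZero N) = z) →
                (torsionIso N p (conjProperty N)).psi n z =
                  ((latticeMat N (toFull _ t)).map (Int.castRingHom (ZMod (p ^ n)))).mulVec u →
                c • (σ • σ • (heckeOperatorBar N ⟨ℓ, hℓ⟩ (z : JZero N) - (ℓ + 1) • (z : JZero N)) -
                  q ^ 2 • (heckeOperatorBar N ⟨ℓ, hℓ⟩ (z : JZero N) - (ℓ + 1) • (z : JZero N))) = 0

/-- For a Hecke operator `t` away from `N` killing level `R = N / q`, a prime `ℓ` and a Frobenius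
element, a constant
kills `σ y - q U_q y`, where `y = (T_ℓ - ℓ - 1) z`, for every torsion point `z` fixed by inertia
whose homomorphism lies in the image of `t`. -/
def ToricSignedTorsionAt (N p q : ℕ) [NeZero N] [Fact p.Prime] (hq : q.Prime) : Prop :=
  ∀ (R : ℕ) [NeZero R] (hR : R ∣ N), R * q = N →
    ∀ t : CuspForm.heckeAlgebra N 2 (levelPrimes N),
      (∀ f : CuspForm (Gamma0 R) 2, t.1 (Newforms.levelIncl hR f) = 0) →
      ∀ (ℓ : ℕ) (hℓ : ℓ.Prime), ¬ ℓ ∣ N * p →
        ∀ A : ValuationSubring (AlgebraicClosure ℚ), A.LiesOverPrime q →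
          ∀ σ : AbsGal, A.IsFrobeniusAt σ q →
            ∃ c : ℕ, 0 < c ∧
              ∀ (n : ℕ) (z : JTors N p n) (u : Fin (2 * Gamma0.genus N) → ZMod (p ^ n)),
                (∀ τ ∈ A.inertiaSubgroupIn ℚ, τ • (z : JZero N) = z) →
                (torsionIso N p (conjProperty N)).psi n z =
                  ((latticeMat N (toFull _ t)).map (Int.castRingHom (ZMod (p ^ n)))).mulVec u →
                c • (σ • (heckeOperatorBar N ⟨ℓ, hℓ⟩ (z : JZero N) - (ℓ + 1) • (z : JZero N)) -
                  q • heckeOperatorBar N ⟨q, hq⟩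
                    (heckeOperatorBar N ⟨ℓ, hℓ⟩ (z : JZero N) - (ℓ + 1) • (z : JZero N))) = 0

/-- The signed toric input on the model: on vectors fixed by inertia at `q`, moved by `toricOp`,
a Frobenius element at `q` is `q U_q`. -/
def ToricSignedAt {N p : ℕ} [NeZero N] [Fact p.Prime] (D : GaloisReps.HeckeGaloisModel N p)
    (q : ℕ) (hq : q.Prime) : Prop :=
  ∀ (R : ℕ) [NeZero R] (hR : R ∣ N), R * q = N →
    ∀ t : CuspForm.heckeAlgebra N 2 (levelPrimes N),
      (∀ f : CuspForm (Gamma0 R) 2, t.1 (Newforms.levelIncl hR f) = 0) →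
        ∀ (ℓ : ℕ) (hℓ : ℓ.Prime), ¬ ℓ ∣ N * p →
        ∀ A : ValuationSubring (AlgebraicClosure ℚ), A.LiesOverPrime q →
          ∀ σ : AbsGal, A.IsFrobeniusAt σ q →
            ∀ v : Fin D.d → ℤ_[p],
              (∀ τ ∈ A.inertiaSubgroupIn ℚ, (D.gal τ).mulVec v = v) →
                (D.gal σ * matIn D.hecke ℤ_[p] (toricOp t hℓ) -
                  (q : ℤ_[p]) • matIn D.hecke ℤ_[p]
                    (HeckeDuality.heckeOp N 2 q hq * toricOp t hℓ)).mulVec v = 0

variable {N p : ℕ} [NeZero N] [Fact p.Prime]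

/-- The toric input on the model. -/
theorem toricSquareAt_modelOfCongruence (hES : CongruenceProperty N p) {q : ℕ}
    (h : ToricTorsionAt N p q) :
    NewformLocal.ToricSquareAt (modelOfCongruence hES) q := by
  intro R _ hR hRq t ht ℓ hℓ hℓNp A hA σ hσ v hv
  obtain ⟨c, hc, h⟩ := h R hR hRq t ht ℓ hℓ hℓNp A hA σ hσ
  set E := torsionIso N p (conjProperty N)
  set Y : Matrix (Fin (2 * Gamma0.genus N)) (Fin (2 * Gamma0.genus N)) ℤ_[p] :=
    matIn (latticeMat N) ℤ_[p] (toricOp t hℓ)
  suffices hw : ∀ w : Fin (2 * Gamma0.genus N) → ℤ_[p],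
      (∀ τ ∈ A.inertiaSubgroupIn ℚ, (E.gal τ).mulVec w = w) →
        (E.gal σ * E.gal σ * Y - (q : ℤ_[p]) ^ 2 • Y).mulVec w = 0 from hw v hv
  clear hv v
  intro v hv
  have key : (c : ℤ_[p]) • (E.gal σ * E.gal σ * Y - (q : ℤ_[p]) ^ 2 • Y).mulVec v = 0 := by
    funext i
    refine PadicInt.ext_of_toZModPow.mp fun n => ?_
    set π := (PadicInt.toZModPow n : ℤ_[p] →+* ZMod (p ^ n))
    set u := π ∘ v
    set Lt := matIn (latticeMat N) ℤ_[p] (toFull (levelPrimes N) t)
    set z := (E.psi n).symm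
      (((latticeMat N (toFull _ t)).map (Int.castRingHom (ZMod (p ^ n)))).mulVec u) with hz
    have hLt : Lt.map π = (latticeMat N (toFull _ t)).map (Int.castRingHom (ZMod (p ^ n))) := by
      show (matIn (latticeMat N) ℤ_[p] _).map π = _
      rw [GaloisReps.matIn_apply]
      exact GaloisReps.map_intCast_toZModPow (p := p) n _
    have hzpsi : E.psi n z = π ∘ Lt.mulVec v := by
      rw [hz, AddEquiv.apply_symm_apply, ← hLt]
      funext j
      exact (RingHom.map_mulVec π Lt v j).symm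
    have hgal : ∀ (τ : AbsGal) (w : Fin (2 * Gamma0.genus N) → ℤ_[p]) (x : JTors N p n),
        E.psi n x = π ∘ w → E.psi n (galTors n τ x) = π ∘ (E.gal τ).mulVec w := by
      intro τ w x hx
      rw [← E.galLvl_mulVec, hx, ← E.map_gal]
      funext j
      exact (RingHom.map_mulVec π _ w j).symm
    have hfix : ∀ τ ∈ A.inertiaSubgroupIn ℚ, τ • (z : JZero N) = z := by
      intro τ hτ
      refine congrArg Subtype.val ((E.psi n).injective (?_ : E.psi n (galTors n τ z) = E.psi n z))
      have hv' : (E.gal τ).mulVec v = v := hv τ hτ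
      have hcm : E.gal τ * Lt = Lt * E.gal τ :=
        (GaloisReps.TorsionIso.gal_commute E (GaloisReps.torsionGalois N p hES) τ _).eq
      rw [hgal τ _ z hzpsi, hzpsi, Matrix.mulVec_mulVec, hcm, ← Matrix.mulVec_mulVec, hv']
    have hmain := h n z u hfix (by rw [hz, AddEquiv.apply_symm_apply])
    set y : JTors N p n := heckeTors n ⟨ℓ, hℓ⟩ z - (ℓ + 1) • z with hy
    have hypsi : E.psi n y = π ∘ Y.mulVec v := by
      have hT : (matIn (latticeMat N) ℤ_[p] (HeckeDuality.heckeOp N 2 ℓ hℓ)).map π =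
          E.mat n (heckeTors n ⟨ℓ, hℓ⟩) := by
        rw [GaloisReps.matIn_apply, GaloisReps.latticeMat_heckeOp,
          GaloisReps.map_intCast_toZModPow, E.mat_heckeTors]
      have hY : Y = (matIn (latticeMat N) ℤ_[p] (HeckeDuality.heckeOp N 2 ℓ hℓ) -
          ((ℓ + 1 : ℕ) : Matrix _ _ ℤ_[p])) * Lt := by
        show matIn (latticeMat N) ℤ_[p] (toricOp t hℓ) = _
        rw [toricOp, mul_comm (toFull (levelPrimes N) t), map_mul, map_sub, map_natCast]
      rw [hy, map_sub, map_nsmul, ← E.mat_mulVec, ← hT, hzpsi, hY, ← Matrix.mulVec_mulVec,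
        Matrix.sub_mulVec, Matrix.natCast_mulVec]
      funext j
      simp only [Pi.sub_apply, Pi.smul_apply, Function.comp_apply, map_sub,
        RingHom.map_mulVec, smul_eq_mul, nsmul_eq_mul, map_mul, map_natCast]
      simp only [RingHom.map_mulVec, Function.comp_apply, Pi.mul_apply, Pi.natCast_apply]
    have hyv : (y : JZero N) = heckeOperatorBar N ⟨ℓ, hℓ⟩ (z : JZero N) - (ℓ + 1) • (z : JZero N) :=
      rfl
    rw [← hyv] at hmain
    have hzero : c • (galTors n σ (galTors n σ y) - q ^ 2 • y) = 0 := Subtype.ext hmain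
    have hσ2 := hgal σ _ _ (hgal σ _ y hypsi)
    clear_value y
    have gen : ∀ (y₁ y₂ : JTors N p n), c • (y₁ - q ^ 2 • y₂) = 0 →
        c • (E.psi n y₁ - q ^ 2 • E.psi n y₂) = 0 := fun y₁ y₂ h0 => by
      simpa only [map_nsmul, map_sub, map_zero] using congrArg (E.psi n) h0
    have h3 := gen _ _ hzero
    rw [hσ2, hypsi] at h3
    have h4 := congrFun h3 i
    have e : (E.gal σ * E.gal σ * Y - (q : ℤ_[p]) ^ 2 • Y).mulVec v =
        (E.gal σ).mulVec ((E.gal σ).mulVec (Y.mulVec v)) - (q : ℤ_[p]) ^ 2 • Y.mulVec v := by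
      rw [Matrix.sub_mulVec, Matrix.smul_mulVec, Matrix.mulVec_mulVec, Matrix.mulVec_mulVec]
    rw [e]
    clear_value Y
    simp only [Pi.smul_apply, Pi.sub_apply, Function.comp_apply, Pi.zero_apply, smul_eq_mul,
      nsmul_eq_mul, map_mul, map_sub, map_pow, map_natCast, map_zero, Nat.cast_pow] at h4 ⊢
    exact h4
  exact (smul_eq_zero.1 key).resolve_left (Nat.cast_ne_zero.2 hc.ne')

/-- The signed toric input on the model. -/
theorem toricSignedAt_modelOfCongruence (hES : CongruenceProperty N p) {q : ℕ} (hq : q.Prime)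
    (h : ToricSignedTorsionAt N p q hq) :
    ToricSignedAt (modelOfCongruence hES) q hq := by
  intro R _ hR hRq t ht ℓ hℓ hℓNp A hA σ hσ v hv
  obtain ⟨c, hc, h⟩ := h R hR hRq t ht ℓ hℓ hℓNp A hA σ hσ
  set E := torsionIso N p (conjProperty N)
  set Y : Matrix (Fin (2 * Gamma0.genus N)) (Fin (2 * Gamma0.genus N)) ℤ_[p] :=
    matIn (latticeMat N) ℤ_[p] (toricOp t hℓ)
  suffices hw : ∀ w : Fin (2 * Gamma0.genus N) → ℤ_[p],
      (∀ τ ∈ A.inertiaSubgroupIn ℚ, (E.gal τ).mulVec w = w) →
        (E.gal σ * Y - (q : ℤ_[p]) •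
          (matIn (latticeMat N) ℤ_[p] (HeckeDuality.heckeOp N 2 q hq) * Y)).mulVec w = 0 by
    have h' := hw v hv
    rw [← map_mul] at h'
    exact h'
  clear hv v
  intro v hv
  set U := matIn (latticeMat N) ℤ_[p] (HeckeDuality.heckeOp N 2 q hq) with hU
  have key : (c : ℤ_[p]) • (E.gal σ * Y - (q : ℤ_[p]) • (U * Y)).mulVec v = 0 := by
    funext i
    refine PadicInt.ext_of_toZModPow.mp fun n => ?_
    set π := (PadicInt.toZModPow n : ℤ_[p] →+* ZMod (p ^ n))
    set u := π ∘ v
    set Lt := matIn (latticeMat N) ℤ_[p] (toFull (levelPrimes N) t)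
    set z := (E.psi n).symm
      (((latticeMat N (toFull _ t)).map (Int.castRingHom (ZMod (p ^ n)))).mulVec u) with hz
    have hLt : Lt.map π = (latticeMat N (toFull _ t)).map (Int.castRingHom (ZMod (p ^ n))) := by
      show (matIn (latticeMat N) ℤ_[p] _).map π = _
      rw [GaloisReps.matIn_apply]
      exact GaloisReps.map_intCast_toZModPow (p := p) n _
    have hzpsi : E.psi n z = π ∘ Lt.mulVec v := by
      rw [hz, AddEquiv.apply_symm_apply, ← hLt]
      funext j
      exact (RingHom.map_mulVec π Lt v j).symm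
    have hgal : ∀ (τ : AbsGal) (w : Fin (2 * Gamma0.genus N) → ℤ_[p]) (x : JTors N p n),
        E.psi n x = π ∘ w → E.psi n (galTors n τ x) = π ∘ (E.gal τ).mulVec w := by
      intro τ w x hx
      rw [← E.galLvl_mulVec, hx, ← E.map_gal]
      funext j
      exact (RingHom.map_mulVec π _ w j).symm
    have hfix : ∀ τ ∈ A.inertiaSubgroupIn ℚ, τ • (z : JZero N) = z := by
      intro τ hτ
      refine congrArg Subtype.val ((E.psi n).injective (?_ : E.psi n (galTors n τ z) = E.psi n z))
      have hv' : (E.gal τ).mulVec v = v := hv τ hτ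
      have hcm : E.gal τ * Lt = Lt * E.gal τ :=
        (GaloisReps.TorsionIso.gal_commute E (GaloisReps.torsionGalois N p hES) τ _).eq
      rw [hgal τ _ z hzpsi, hzpsi, Matrix.mulVec_mulVec, hcm, ← Matrix.mulVec_mulVec, hv']
    have hmain := h n z u hfix (by rw [hz, AddEquiv.apply_symm_apply])
    set y : JTors N p n := heckeTors n ⟨ℓ, hℓ⟩ z - (ℓ + 1) • z with hy
    have hypsi : E.psi n y = π ∘ Y.mulVec v := by
      have hT : (matIn (latticeMat N) ℤ_[p] (HeckeDuality.heckeOp N 2 ℓ hℓ)).map π =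
          E.mat n (heckeTors n ⟨ℓ, hℓ⟩) := by
        rw [GaloisReps.matIn_apply, GaloisReps.latticeMat_heckeOp,
          GaloisReps.map_intCast_toZModPow, E.mat_heckeTors]
      have hY : Y = (matIn (latticeMat N) ℤ_[p] (HeckeDuality.heckeOp N 2 ℓ hℓ) -
          ((ℓ + 1 : ℕ) : Matrix _ _ ℤ_[p])) * Lt := by
        show matIn (latticeMat N) ℤ_[p] (toricOp t hℓ) = _
        rw [toricOp, mul_comm (toFull (levelPrimes N) t), map_mul, map_sub, map_natCast]
      rw [hy, map_sub, map_nsmul, ← E.mat_mulVec, ← hT, hzpsi, hY, ← Matrix.mulVec_mulVec,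
        Matrix.sub_mulVec, Matrix.natCast_mulVec]
      funext j
      simp only [Pi.sub_apply, Pi.smul_apply, Function.comp_apply, map_sub,
        RingHom.map_mulVec, smul_eq_mul, nsmul_eq_mul, map_mul, map_natCast]
      simp only [RingHom.map_mulVec, Function.comp_apply, Pi.mul_apply, Pi.natCast_apply]
    have hyv : (y : JZero N) = heckeOperatorBar N ⟨ℓ, hℓ⟩ (z : JZero N) - (ℓ + 1) • (z : JZero N) :=
      rfl
    rw [← hyv] at hmain
    have hzero : c • (galTors n σ y - q • heckeTors n ⟨q, hq⟩ y) = 0 := Subtype.ext hmain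
    have hσ1 := hgal σ _ y hypsi
    have hUy : E.psi n (heckeTors n ⟨q, hq⟩ y) = π ∘ U.mulVec (Y.mulVec v) := by
      rw [← E.mat_mulVec, E.mat_heckeTors, hypsi, ← GaloisReps.map_intCast_toZModPow n,
        ← GaloisReps.latticeMat_heckeOp]
      funext j
      exact (RingHom.map_mulVec π _ _ j).symm
    clear_value y
    have gen : ∀ (y₁ y₂ : JTors N p n), c • (y₁ - q • y₂) = 0 →
        c • (E.psi n y₁ - q • E.psi n y₂) = 0 := fun y₁ y₂ h0 => by
      simpa only [map_nsmul, map_sub, map_zero] using congrArg (E.psi n) h0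
    have h3 := gen _ _ hzero
    rw [hσ1, hUy] at h3
    have h4 := congrFun h3 i
    have e : (E.gal σ * Y - (q : ℤ_[p]) • (U * Y)).mulVec v =
        (E.gal σ).mulVec (Y.mulVec v) - (q : ℤ_[p]) • U.mulVec (Y.mulVec v) := by
      rw [Matrix.sub_mulVec, Matrix.smul_mulVec, Matrix.mulVec_mulVec, Matrix.mulVec_mulVec]
    rw [e]
    clear_value Y
    simp only [Pi.smul_apply, Pi.sub_apply, Function.comp_apply, Pi.zero_apply, smul_eq_mul,
      nsmul_eq_mul, map_mul, map_sub, map_natCast, map_zero] at h4 ⊢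
    exact h4
  exact (smul_eq_zero.1 key).resolve_left (Nat.cast_ne_zero.2 hc.ne')

section Degeneracy

open NewformLocal.Toric (IsDegeneracySystems)

/-- A torsion point with homomorphism in the image of an operator killing level `R = N / q` is
killed by both degeneracy operators. -/
theorem degeneracy_torsionEquiv_eq_zero {q R : ℕ} [NeZero R] (hqR : LevelRaising.RaiseData q R)
    (hR : R ∣ N) (hRq : R * q = N) (t : CuspForm.heckeAlgebra N 2 (levelPrimes N))
    (ht : ∀ f : CuspForm (Gamma0 R) 2, t.1 (Newforms.levelIncl hR f) = 0)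
    {n : ℕ} [NeZero (p ^ n)] (z : JTors N p n) (u : Fin (2 * Gamma0.genus N) → ZMod (p ^ n))
    (hz : (torsionIso N p (conjProperty N)).psi n z =
      ((latticeMat N (toFull _ t)).map (Int.castRingHom (ZMod (p ^ n)))).mulVec u)
    {C S : Periods.HeckeSystem (Gamma0 N) (Gamma0 R) (Option (Fin q))}
    {W : Periods.HeckeSystem (Gamma0 N) (Gamma0 N) Unit}
    (hS : IsDegeneracySystems q R N C S W) :
    C.apply (JacTorsion.torsionEquiv N (p ^ n) z).1 = 0 ∧
      S.apply (JacTorsion.torsionEquiv N (p ^ n) z).1 = 0 := by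
  subst hRq
  set φ := ((torsionIso (R * q) p (conjProperty (R * q))).e n z) with hφ
  have h := NewformLocal.Toric.degeneracy_eq_zero hqR t ht φ.2 u hz
  have e : GaloisReps.atkinHom (R * q) _ φ.1 = (JacTorsion.torsionEquiv (R * q) (p ^ n) z).1 :=
    GaloisReps.atkinHom_atkinHom _
  rw [e] at h
  have hS' : IsDegeneracySystems q R (R * q) hqR.corSys hqR.starSys hqR.wSys :=
    ⟨fun _ => rfl, fun _ => rfl, rfl, fun φ => hqR.cor_w φ⟩
  obtain ⟨h1, h2⟩ := hS.apply_eq hS' (JacTorsion.torsionEquiv (R * q) (p ^ n) z).1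
  rw [h1, h2]
  exact h

/-- The homomorphism of `(T_ℓ - ℓ - 1) z` is in the image of the operator when that of `z` is. -/
theorem exists_psi_heckeTors_sub (t : CuspForm.heckeAlgebra N 2 (levelPrimes N)) {n ℓ : ℕ}
    (hℓ : ℓ.Prime) (z : JTors N p n) (u : Fin (2 * Gamma0.genus N) → ZMod (p ^ n))
    (hz : (torsionIso N p (conjProperty N)).psi n z =
      ((latticeMat N (toFull _ t)).map (Int.castRingHom (ZMod (p ^ n)))).mulVec u) :
    ∃ u', (torsionIso N p (conjProperty N)).psi n (heckeTors n ⟨ℓ, hℓ⟩ z - (ℓ + 1) • z) =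
      ((latticeMat N (toFull _ t)).map (Int.castRingHom (ZMod (p ^ n)))).mulVec u' := by
  set E := torsionIso N p (conjProperty N)
  set Lt := (latticeMat N (toFull _ t)).map (Int.castRingHom (ZMod (p ^ n))) with hLt
  set T := (GaloisReps.opMat N ℓ hℓ).map (Int.castRingHom (ZMod (p ^ n))) with hT
  have hc : T * Lt = Lt * T := by
    rw [hT, hLt, ← GaloisReps.latticeMat_heckeOp, ← RingHom.mapMatrix_apply,
      ← RingHom.mapMatrix_apply, ← map_mul, ← map_mul, ← map_mul, ← map_mul,
      mul_comm (HeckeDuality.heckeOp N 2 ℓ hℓ)]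
  refine ⟨T.mulVec u - (ℓ + 1) • u, ?_⟩
  rw [map_sub, map_nsmul, ← E.mat_mulVec, E.mat_heckeTors, hz, ← hT, Matrix.mulVec_sub,
    Matrix.mulVec_smul, Matrix.mulVec_mulVec, hc, ← Matrix.mulVec_mulVec]

/-- Both degeneracy operators kill the homomorphisms of `z` and of `(T_ℓ - ℓ - 1) z`. -/
theorem degeneracy_eq_zero_pair {q R : ℕ} [NeZero R] (hqR : LevelRaising.RaiseData q R)
    (hR : R ∣ N) (hRq : R * q = N) (t : CuspForm.heckeAlgebra N 2 (levelPrimes N))
    (ht : ∀ f : CuspForm (Gamma0 R) 2, t.1 (Newforms.levelIncl hR f) = 0)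
    {n ℓ : ℕ} [NeZero (p ^ n)] (hℓ : ℓ.Prime) (z : JTors N p n)
    (u : Fin (2 * Gamma0.genus N) → ZMod (p ^ n))
    (hz : (torsionIso N p (conjProperty N)).psi n z =
      ((latticeMat N (toFull _ t)).map (Int.castRingHom (ZMod (p ^ n)))).mulVec u)
    {C S : Periods.HeckeSystem (Gamma0 N) (Gamma0 R) (Option (Fin q))}
    {W : Periods.HeckeSystem (Gamma0 N) (Gamma0 N) Unit}
    (hS : IsDegeneracySystems q R N C S W) :
    (C.apply (JacTorsion.torsionEquiv N (p ^ n) z).1 = 0 ∧
      S.apply (JacTorsion.torsionEquiv N (p ^ n) z).1 = 0) ∧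
    (C.apply (JacTorsion.torsionEquiv N (p ^ n) (heckeTors n ⟨ℓ, hℓ⟩ z - (ℓ + 1) • z)).1 = 0 ∧
      S.apply (JacTorsion.torsionEquiv N (p ^ n) (heckeTors n ⟨ℓ, hℓ⟩ z - (ℓ + 1) • z)).1 = 0) := by
  obtain ⟨u', hu'⟩ := exists_psi_heckeTors_sub t hℓ z u hz
  exact ⟨degeneracy_torsionEquiv_eq_zero hqR hR hRq t ht z u hz hS,
    degeneracy_torsionEquiv_eq_zero hqR hR hRq t ht _ u' hu' hS⟩

end Degeneracy

end Fermat.Agent.Semistable

end
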