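import Mathlib
import Fermat.Agent.NewformLocal.Toric.Transfer

/-!
# `U_q = -w` on classes killed by the degeneracy to level `M`

At level `N = q M` the Hecke norm `Norm_α (β f)` times `w f` is `(Norm f)(q τ)`, where `Norm` is
the norm to level `M`. So `U_q + w` kills the class of `f` when this norm is an `m`-th power.
-/

set_option autoImplicit false
set_option maxHeartbeats 800000
set_option linter.style.haveILetI false

noncomputable section

open CongruenceSubgroup AlgebraicCurve ModularCurve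
open Matrix.SpecialLinearGroup (mapGL)
open Fermat.Agent.ModFun Fermat.Agent.JacTorsion
open scoped MatrixGroups

namespace Fermat.Agent.Semistable.UqW

open LevelRaising (intGL intGL_val corMat wMat RaiseData)
open GaloisReps (actGL diagGL det_diagGL_pos det_mul_pos det_mapGL_pos mkGamma0 corrRep atkinGL)
open Periods (HeckeSystem)
open Arith (QBar)
open NewformLocal.Toric

/-- `!![1, 0; N a, 1]`. -/
def low (N : ℕ) (a : ℤ) : Gamma0 N :=
  mkGamma0 N 1 0 ((N : ℤ) * a) 1 (by ring) (dvd_mul_right _ _)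

theorem low_add (N : ℕ) (a b : ℤ) :
    (low N (a + b) : SL(2, ℤ)) = (low N a : SL(2, ℤ)) * (low N b : SL(2, ℤ)) := by
  apply Subtype.ext
  rw [Matrix.SpecialLinearGroup.coe_mul]
  simp only [low, GaloisReps.coe_mkGamma0]
  ext i j
  fin_cases i <;> fin_cases j <;> simp [Matrix.mul_apply, Fin.sum_univ_two]
  ring

section Diag

variable (q : ℕ) [NeZero q]

theorem diag_mul_low (N : ℕ) (t : ℤ) :
    diagGL q * mapGL ℝ (low N (q * t) : SL(2, ℤ)) =
      mapGL ℝ (low N t : SL(2, ℤ)) * diagGL q := by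
  apply Units.ext
  ext i j
  fin_cases i <;> fin_cases j <;>
    simp [low, Units.val_mul, GaloisReps.coe_mkGamma0,
      GaloisReps.coe_diagGL, Matrix.mul_apply, Fin.sum_univ_two]
  ring

theorem diag_one_mul_atkin (N : ℕ) [NeZero N] (i : ℕ) :
    atkinGL N * ModularForm.heckeMatrix q i =
      diagGL q * mapGL ℝ (low N (-(i : ℤ)) : SL(2, ℤ)) * atkinGL N := by
  apply Units.ext
  ext a b
  fin_cases a <;> fin_cases b <;>
    simp [low, Units.val_mul, GaloisReps.coe_mkGamma0,
      GaloisReps.coe_diagGL, GaloisReps.coe_atkinGL, Matrix.mul_apply, Matrix.vecMul, dotProduct,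
      Fin.sum_univ_two, NeZero.ne q]

variable {N : ℕ} [NeZero N]

omit [NeZero N] in
theorem det_diag_low_pos (a : ℤ) :
    0 < (diagGL q * mapGL ℝ (low N a : SL(2, ℤ))).det.val :=
  det_mul_pos (det_diagGL_pos q) (det_mapGL_pos _)

/-- The translates by `diag(q, 1) !![1, 0; N a, 1]` depend on `a` modulo `q`. -/
theorem actGL_diag_low_congr {a b : ℤ} (h : (q : ℤ) ∣ a - b) (z : FC N) :
    actGL (diagGL q * mapGL ℝ (low N a : SL(2, ℤ))) (det_diag_low_pos q a) (e1 N z) =
      actGL (diagGL q * mapGL ℝ (low N b : SL(2, ℤ))) (det_diag_low_pos q b) (e1 N z) := by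
  obtain ⟨t, ht⟩ := h
  have hmat : diagGL q * mapGL ℝ (low N a : SL(2, ℤ)) =
      mapGL ℝ (low N t : SL(2, ℤ)) * (diagGL q * mapGL ℝ (low N b : SL(2, ℤ))) := by
    rw [show a = q * t + b by omega, low_add, map_mul, ← mul_assoc, diag_mul_low, mul_assoc]
  rw [GaloisReps.actGL_congr hmat _ (det_mul_pos (det_mapGL_pos _) (det_diag_low_pos q b)),
    GaloisReps.actGL_mul (det_mapGL_pos _), GaloisReps.actGL_mapGL]
  exact congrArg _ (actMer_e1 (low N t).2 z)

end Diag

variable {q M : ℕ} [hq : Fact q.Prime] [NeZero M] (hqM : ¬ q ∣ M)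

theorem corSL_none_mul_diag :
    mapGL ℝ (corSL hqM none) * diagGL q = intGL (wMat q M) := by
  rw [mapGL_corSL hqM]
  apply Units.ext
  rw [Units.val_mul, intGL_val (by rw [(raiseData hqM).det_corMat]; exact one_ne_zero),
    intGL_val (by rw [(raiseData hqM).det_wMat]; exact_mod_cast hq.out.ne_zero),
    GaloisReps.coe_diagGL]
  ext i j
  fin_cases i <;> fin_cases j <;> simp [corMat, wMat, Matrix.mul_apply, Fin.sum_univ_two]
  ring

theorem corSL_some_mul_diag (x : Fin q) :
    mapGL ℝ (corSL hqM (some x)) * diagGL q =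
      diagGL q * mapGL ℝ (low (q * M) (x : ℤ) : SL(2, ℤ)) := by
  rw [mapGL_corSL hqM]
  apply Units.ext
  rw [Units.val_mul, Units.val_mul,
    intGL_val (by rw [(raiseData hqM).det_corMat]; exact one_ne_zero), GaloisReps.coe_diagGL]
  ext i j
  fin_cases i <;> fin_cases j <;>
    simp [corMat, low, GaloisReps.coe_mkGamma0, Matrix.mul_apply,
      Fin.sum_univ_two]
  ring

include hqM in
/-- `Norm_α (β f) · w f = (Norm f)(q τ)`. -/
theorem norm_beta_mul_wEquiv (x : FB (q * M)) :
    (letI := algebraAlong (heckeAlphaBar QBar (q * M) q);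
      Algebra.norm (FB (q * M)) (heckeBetaBar QBar (q * M) q x)) * wEquiv q M hqM x =
      downF M q hqM (normUp q M x) := by
  have : NeZero (q * M * q) := ⟨mul_ne_zero (NeZero.ne _) hq.out.ne_zero⟩
  have : NeZero (M * q) := ⟨mul_ne_zero (NeZero.ne M) hq.out.ne_zero⟩
  have hdvd : q ∣ q * M := dvd_mul_right q M
  refine (((e1 (q * M)).toRingHom.comp (toC (q * M)))).injective ?_
  show e1 (q * M) (toC (q * M) _) = e1 (q * M) (toC (q * M) _)
  rw [map_mul, map_mul]
  rw [GaloisReps.e1_norm_eq_prod (Periods.systemU hq.out.ne_zero hdvd) (fun _ => 1)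
    (fun i : Fin q => low (q * M) (-((i : ℕ) : ℤ)))
    (by rw [Fintype.card_fin, mul_comm (q * M) q, Gamma0.dedekindPsi_mul_of_dvd hq.out hdvd,
      mul_comm])
    (fun i => by
      show atkinGL (q * M) * ModularForm.heckeMatrix q i = _
      rw [diag_one_mul_atkin, corrRep, OneMemClass.coe_one, map_one, one_mul]) x,
    e1_wEquiv hqM]
  have hdown : e1 (q * M) (toC (q * M) (downF M q hqM (normUp q M x))) =
      actGL (diagGL q) (det_diagGL_pos q) (e1 M (toC M (normUp q M x))) := by
    rw [← GaloisReps.e1_eq_of_coe_eq_qExpand (d := q) (toC M (normUp q M x))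
      (toC (M * q) (heckeBetaBar QBar M q (normUp q M x)))
      (by rw [coe_toC, coe_toC, coe_heckeBetaBar, coeffMap_qExpand])]
    exact GaloisReps.e1_eq_of_coe_eq (dvd_of_eq (mul_comm M q)) _ _
      (by rw [coe_toC, coe_toC, coe_heckeBetaBar, coe_downF])
  obtain ⟨C, S, W, hS⟩ := exists_degeneracySystems (raiseData (q := q) (M := M) hqM)
    (L := q * M) (mul_comm q M)
  rw [hdown, e1_normUp hqM C hS.cor_rep x, map_prod, Fintype.prod_option, mul_comm]
  congr 1
  · rw [← GaloisReps.actGL_mapGL, ← GaloisReps.actGL_mul (det_mapGL_pos _)]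
    exact GaloisReps.actGL_congr (corSL_none_mul_diag hqM).symm
      _ (det_mul_pos (det_mapGL_pos _) (det_diagGL_pos q)) _
  · haveI : NeZero q := ⟨hq.out.ne_zero⟩
    rw [← Equiv.prod_comp (Equiv.neg (Fin q)) (fun i => actGL (diagGL q) (det_diagGL_pos q)
      (actMer (corSL hqM (some i)) (e1 (q * M) (toC (q * M) x))))]
    refine Finset.prod_congr rfl fun i _ => ?_
    rw [← GaloisReps.actGL_mapGL, ← GaloisReps.actGL_mul (det_mapGL_pos _)
      (det_diagGL_pos q),
      GaloisReps.actGL_congr (corSL_some_mul_diag hqM _) _ (det_diag_low_pos q _),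
      GaloisReps.actGL_congr (show corrRep (ℓ := q) (fun _ : Fin q => (1 : Gamma0 (q * M)))
          (fun i : Fin q => low (q * M) (-((i : ℕ) : ℤ))) i =
          diagGL q * mapGL ℝ (low (q * M) (-((i : ℕ) : ℤ)) : SL(2, ℤ)) by
        rw [corrRep, OneMemClass.coe_one, map_one, one_mul]) _ (det_diag_low_pos q _)]
    refine actGL_diag_low_congr q ?_ _
    rw [Equiv.neg_apply, Fin.val_neg']
    refine (ZMod.intCast_eq_intCast_iff_dvd_sub _ _ q).mp ?_
    push_cast
    rw [Nat.cast_sub i.2.le, ZMod.natCast_self, zero_sub]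

variable {m : ℕ} [NeZero m]

include hqM in
/-- `U_q + w` kills a class whose function has an `m`-th power as norm to level `M`. -/
theorem heckeOperatorBar_add_wDiv (f : divGrp QBar (FB (q * M)) m)
    (hf : ∃ g : FB M, g ≠ 0 ∧ normUp q M ((f : (FB (q * M))ˣ) : FB (q * M)) = g ^ m) :
    heckeOperatorBar (q * M) ⟨q, hq.out⟩ (toTorsion (Additive.ofMul f) : JZero (q * M)) +
      (toTorsion (Additive.ofMul (wDiv hqM f)) : JZero (q * M)) = 0 := by
  obtain ⟨g, hg0, hg⟩ := hf
  have hin := FF.heckeInputsAlong QBar (q * M) q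
  haveI := hin.snd.snd.fst
  change heckeOperatorAlong QBar (q * M) q _ + _ = 0
  rw [heckeOperatorAlong, dif_pos hin]
  obtain ⟨f', hf', htor⟩ := GaloisReps.correspondence_toTorsion (heckeBetaBar QBar (q * M) q)
    (heckeAlphaBar QBar (q * M) q) hin.snd.fst hin.fst hin.snd.snd.snd.snd.1
    hin.snd.snd.snd.fst hin.snd.snd.snd.snd.2 f
  have h0 : toTorsion (Additive.ofMul (f' * wDiv hqM f)) = 0 := by
    refine (toTorsion_eq_zero_iff _).mpr
      ⟨Units.mk0 (downF M q hqM g) ((map_ne_zero _).mpr hg0), ?_⟩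
    refine Units.ext ?_
    rw [powMonoidHom_apply, Units.val_pow_eq_pow_val, Units.val_mk0, Subgroup.coe_subtype,
      Subgroup.coe_mul, Units.val_mul, hf', coe_wDiv, norm_beta_mul_wEquiv hqM, hg, map_pow]
  show Pic0.correspondence _ _ _ _ _ _ _ _ + _ = 0
  rw [← htor]
  rw [ofMul_mul, map_add] at h0
  exact congrArg Subtype.val h0

include hqM in
/-- `U_q + w` kills a class whose monodromy is killed by the corestriction to level `M`. -/
theorem heckeOperatorBar_add_wDiv_of_cor
    (C : HeckeSystem (Gamma0 (q * M)) (Gamma0 M) (Option (Fin q)))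
    (hC : ∀ i, C.rep i = intGL (corMat q M i)) (f : divGrp QBar (FB (q * M)) m)
    (hf : C.apply (monodromy f) = 0) :
    heckeOperatorBar (q * M) ⟨q, hq.out⟩ (toTorsion (Additive.ofMul f) : JZero (q * M)) +
      (toTorsion (Additive.ofMul (wDiv hqM f)) : JZero (q * M)) = 0 :=
  heckeOperatorBar_add_wDiv hqM f (exists_normUp_eq_pow hqM C hC f hf)

end Fermat.Agent.Semistable.UqW

end
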