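import Fermat.Agent.NewformLocal.Toric.Homs
import Fermat.Agent.NewformLocal.Toric.Transfer
import Fermat.Agent.RT.Mazur.Orders
import Fermat.Agent.RT.Mazur.Rational
import Fermat.Agent.Semistable.HeckeRatio
import Fermat.Agent.Semistable.ToricCore
import Fermat.Agent.Semistable.ToricReduce
import Fermat.Agent.Semistable.UqW

/-!
# Frobenius on the inertia fixed torsion points moved to the new part

For a torsion point `z` fixed by inertia in the image of a Hecke operator killing level `N / q`,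
a constant independent of `z` kills `σ² y - q² y` and `σ y - q U_q y`, `y = (T_ℓ - ℓ - 1) z`.
-/

set_option autoImplicit false
set_option maxHeartbeats 1600000
set_option synthInstance.maxHeartbeats 400000
set_option linter.unusedSectionVars false

noncomputable section

open ModularCurve CongruenceSubgroup AlgebraicCurve

namespace Fermat.Agent.Semistable

open Arith (QBar GQ)
open GaloisReps (AbsGal JTors torsionIso conjProperty latticeMat toFull heckeTors atkinHom)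
open NewformLocal (levelPrimes)
open NewformLocal.Toric (IsDegeneracySystems normUp monodromy wDiv coe_wDiv raiseData)
open JacTorsion (divGrp divQuot toTorsion)
open Periods (HeckeSystem)

/-- The degeneracy systems at any spelling of the level, with the vanishing on the new part. -/
theorem exists_systems_kill {q M L : ℕ} [NeZero M] [NeZero L] (h : LevelRaising.RaiseData q M)
    (hL : L = M * q) (hR : M ∣ L) :
    ∃ C S W, IsDegeneracySystems q M L C S W ∧
      ∀ t : CuspForm.heckeAlgebra L 2 (levelPrimes L),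
        (∀ f : CuspForm (Gamma0 M) 2, t.1 (Newforms.levelIncl hR f) = 0) →
        ∀ {B : Type} [CommRing B] {φ : Additive (Gamma0 L) →+ B},
          φ ∈ Gamma0.ellParHoms (Gamma0 L) B → ∀ c : Fin (2 * Gamma0.genus L) → B,
            GaloisReps.coord L B φ =
              ((latticeMat L (toFull _ t)).map (Int.castRingHom B)).mulVec c →
            C.apply (atkinHom L B φ) = 0 ∧ S.apply (atkinHom L B φ) = 0 := by
  subst hL
  exact ⟨h.corSys, h.starSys, h.wSys, ⟨fun _ => rfl, fun _ => rfl, rfl, fun φ => h.cor_w φ⟩,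
    fun t ht _ _ _ hφ c hc => NewformLocal.Toric.degeneracy_eq_zero h t ht hφ c hc⟩

variable {A : ValuationSubring QBar} {q M : ℕ} [hq : Fact q.Prime] [NeZero M] {p : ℕ}
  [Fact p.Prime]

/-- An auxiliary level without elliptic points, prime to `q`. -/
theorem exists_auxLevel (hqM : ¬ q ∣ M) :
    ∃ M' : ℕ, M ∣ M' ∧ ¬ q ∣ M' ∧ ∃ _ : NeZero M', nuTwo M' = 0 ∧ nuThree M' = 0 := by
  have h49 : ∃ k, (k = 4 ∨ k = 9) ∧ ¬ q ∣ k := by
    by_cases h2 : q = 2
    · exact ⟨9, Or.inr rfl, by subst h2; decide⟩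
    · exact ⟨4, Or.inl rfl, fun h => h2 ((Nat.prime_dvd_prime_iff_eq hq.out Nat.prime_two).mp
        (hq.out.dvd_of_dvd_pow (show q ∣ 2 ^ 2 from h)))⟩
  obtain ⟨k, hk, hqk⟩ := h49
  refine ⟨M * k, dvd_mul_right M k, fun h => (hq.out.dvd_mul.mp h).elim hqM hqk,
    ⟨mul_ne_zero (NeZero.ne M) (by rcases hk with rfl | rfl <;> norm_num)⟩, ?_⟩
  exact RedTorsion.no_root_sq_add_one hk (dvd_mul_left k M)

theorem ordersDvd [CharP (Res A) q] {M' : ℕ} [NeZero M'] (h : Setup A M' q)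
    (hE : nuTwo M' = 0 ∧ nuThree M' = 0) [FF.IsFunctionField (Res A) (KM A M')] :
    OrdersDvd A M' q h.hqM h.hM :=
  fun _ hm F hfix hdiv hne => RT.Mazur.dvd_ord_red_of_noEll h.hA hE h.good hm hfix hdiv hne h.hM

/-- Both conclusions on functions. -/
theorem exists_powerOn_both (hA : A.LiesOverPrime q) (hqM : ¬ q ∣ M) {σ : GQ}
    (hσ : A.IsFrobeniusAt σ q) :
    ∃ e : ℕ, 0 < e ∧ PowerOn A q M hqM (sqOp q M σ) e ∧ PowerOn A q M hqM (signOp hqM σ) e := by
  obtain ⟨M', hMM, hqM', hnz, hE⟩ := exists_auxLevel hqM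
  have := Arith.residueField_charP hA hq.out
  have := Arith.residueField_isAlgClosed A
  have := isFunctionField_KM (A := A) (M := M) (natCast_level_ne_zero hA hqM)
  have := isFunctionField_KM (A := A) (M := M') (natCast_level_ne_zero hA hqM')
  have h := setup (M := M) hA hqM
  have h' := setup (M := M') hA hqM'
  obtain ⟨e₁, he₁, h₁⟩ := exists_powerOn_sqOp h h' hMM (ordersDvd h' hE) hσ
  obtain ⟨e₂, he₂, h₂⟩ := exists_powerOn_signOp h h' hMM (ordersDvd h' hE) hσ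
  refine ⟨e₁ * e₂, Nat.mul_pos he₁ he₂, fun m hm F a b c d e => ?_, fun m hm F a b c d e => ?_⟩
  · obtain ⟨G, hG⟩ := h₁ m hm F a b c d e
    exact ⟨G ^ e₂, by rw [pow_mul, hG, ← pow_mul, ← pow_mul, Nat.mul_comm m e₂]⟩
  · obtain ⟨G, hG⟩ := h₂ m hm F a b c d e
    exact ⟨G ^ e₁, by rw [Nat.mul_comm e₁, pow_mul, hG, ← pow_mul, ← pow_mul, Nat.mul_comm m e₁]⟩

/-- A multiple of a divisor which is `m` times a function divisor is principal in `Pic⁰`. -/
theorem nsmul_mk_eq_zero {N m : ℕ} [NeZero N] (hm : m ≠ 0) (e : ℕ) {G : FB N} (hG : G ≠ 0)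
    (D : Divisor.degZero (K := QBar) (F := FB N))
    (h : ∀ v : Place QBar (FB N), (e : ℤ) * ((m : ℤ) * (D : Divisor QBar (FB N)) v) =
      (m : ℤ) * v.ord G) : e • Pic0.mk D = 0 := by
  refine (map_nsmul (QuotientAddGroup.mk' _) e D).symm.trans ?_
  refine (QuotientAddGroup.eq_zero_iff (e • D)).mpr ?_
  rw [AddSubgroup.mem_addSubgroupOf, AddSubgroupClass.coe_nsmul]
  refine ⟨G, hG, fun v => ?_⟩
  rw [Finsupp.smul_apply, nsmul_eq_mul]
  exact mul_left_cancel₀ (Int.natCast_ne_zero.mpr hm) (by rw [← h v]; ring)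

/-- The data on functions attached to `y = (T_ℓ - ℓ - 1) z`. -/
theorem exists_fixed_function (hA : A.LiesOverPrime q) (hqM : ¬ q ∣ M)
    (t : CuspForm.heckeAlgebra (q * M) 2 (levelPrimes (q * M)))
    (ht : ∀ f : CuspForm (Gamma0 M) 2, t.1 (Newforms.levelIncl (dvd_mul_left M q) f) = 0)
    (ℓ : ℕ) (hℓ : ℓ.Prime) (hℓN : ¬ ℓ ∣ q * M * p) (n : ℕ) (z : JTors (q * M) p n)
    (u : Fin (2 * Gamma0.genus (q * M)) → ZMod (p ^ n))
    (hz : ∀ τ ∈ A.inertiaSubgroupIn ℚ, τ • (z : JZero (q * M)) = z)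
    (hu : (torsionIso (q * M) p (conjProperty (q * M))).psi n z =
      ((latticeMat (q * M) (toFull _ t)).map (Int.castRingHom (ZMod (p ^ n)))).mulVec u) :
    ∃ f : divGrp QBar (FB (q * M)) (p ^ n),
      (toTorsion (Additive.ofMul f) : JZero (q * M)) =
        heckeOperatorBar (q * M) ⟨ℓ, hℓ⟩ (z : JZero (q * M)) - (ℓ + 1) • (z : JZero (q * M)) ∧
      RT.Mazur.InertiaFixed A (((f : (FB (q * M))ˣ) : FB (q * M)) : LSer) ∧
      (∀ s, RT.Mazur.IsGUnit A (iota2 M q hqM s ((f : (FB (q * M))ˣ) : FB (q * M)))) ∧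
      (∃ g : FB M, g ≠ 0 ∧ normUp q M ((f : (FB (q * M))ˣ) : FB (q * M)) = g ^ p ^ n) ∧
      ∃ g : FB M, g ≠ 0 ∧
        normUp q M (wEquiv q M hqM ((f : (FB (q * M))ˣ) : FB (q * M))) = g ^ p ^ n := by
  have : NeZero (p ^ n) := ⟨pow_ne_zero n (Fact.out : p.Prime).ne_zero⟩
  have : NeZero ℓ := ⟨hℓ.ne_zero⟩
  have hℓN' : ¬ ℓ ∣ q * M := fun h => hℓN (h.mul_right p)
  set E := torsionIso (q * M) p (conjProperty (q * M))
  obtain ⟨f₀, hf₀, -, hfix⟩ := RT.Mazur.exists_rational_kummer A z hz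
  obtain ⟨f, hfcoe, hfT⟩ := exists_divGrp_heckeRatio ℓ hℓ f₀
  have hyz : (toTorsion (Additive.ofMul f) : JZero (q * M)) =
      heckeOperatorBar (q * M) ⟨ℓ, hℓ⟩ (z : JZero (q * M)) - (ℓ + 1) • (z : JZero (q * M)) := by
    rw [hfT, hf₀, ← natCast_zsmul]
    push_cast
    rfl
  refine ⟨f, hyz, ?_, fun s => ?_, ?_⟩
  · rw [hfcoe]
    exact inertiaFixed_heckeRatio hℓ hℓN' hfix
  · rw [hfcoe]
    exact isGUnit_iota2_heckeRatio hA hqM hℓ hℓN' (Units.ne_zero (f₀ : (FB (q * M))ˣ)) hfix s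
  -- the monodromy is killed by both degeneracy operators
  obtain ⟨C, S, W, hS, hkill⟩ :=
    exists_systems_kill (L := q * M) (raiseData hqM) (mul_comm q M) (dvd_mul_left M q)
  set y : JTors (q * M) p n := toTorsion (Additive.ofMul f)
  have hy : y = heckeTors n ⟨ℓ, hℓ⟩ z - (ℓ + 1) • z := Subtype.ext hyz
  set T : Matrix (Fin (2 * Gamma0.genus (q * M))) (Fin (2 * Gamma0.genus (q * M))) (ZMod (p ^ n)) :=
    (latticeMat (q * M) (HeckeDuality.heckeOp (q * M) 2 ℓ hℓ)).map (Int.castRingHom (ZMod (p ^ n))) with hT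
  have hpsi : E.psi n y = ((latticeMat (q * M) (toFull _ t)).map (Int.castRingHom (ZMod (p ^ n)))).mulVec
      (T.mulVec u - (ℓ + 1) • u) := by
    rw [hy, map_sub, map_nsmul, ← E.mat_mulVec, E.mat_heckeTors, ← GaloisReps.latticeMat_heckeOp,
      hu, Matrix.mulVec_sub, Matrix.mulVec_mulVec, Matrix.mulVec_mulVec, Matrix.mulVec_smul, hT,
      ← Matrix.map_mul, ← Matrix.map_mul, ← map_mul, ← map_mul,
      mul_comm (HeckeDuality.heckeOp (q * M) 2 ℓ hℓ)]
  obtain ⟨hc, hs⟩ := hkill t ht (E.e n y).2 _ hpsi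
  have e : atkinHom (q * M) (ZMod (p ^ n)) (E.e n y).1 = monodromy f :=
    GaloisReps.atkinHom_atkinHom (monodromy f)
  rw [e] at hc hs
  exact NewformLocal.Toric.exists_norms_eq_pow hqM hS f hc hs

/-- **The torsion statements**, at level `q M`. -/
theorem exists_kill_level (hqp : q ≠ p) (hqM : ¬ q ∣ M)
    (t : CuspForm.heckeAlgebra (q * M) 2 (levelPrimes (q * M)))
    (ht : ∀ f : CuspForm (Gamma0 M) 2, t.1 (Newforms.levelIncl (dvd_mul_left M q) f) = 0)
    (ℓ : ℕ) (hℓ : ℓ.Prime) (hℓN : ¬ ℓ ∣ q * M * p) (hA : A.LiesOverPrime q) {σ : GQ}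
    (hσ : A.IsFrobeniusAt σ q) :
    ∃ c : ℕ, 0 < c ∧ ∀ (n : ℕ) (z : JTors (q * M) p n)
      (u : Fin (2 * Gamma0.genus (q * M)) → ZMod (p ^ n)),
      (∀ τ ∈ A.inertiaSubgroupIn ℚ, τ • (z : JZero (q * M)) = z) →
      (torsionIso (q * M) p (conjProperty (q * M))).psi n z =
        ((latticeMat (q * M) (toFull _ t)).map (Int.castRingHom (ZMod (p ^ n)))).mulVec u →
      c • (σ • σ • (heckeOperatorBar (q * M) ⟨ℓ, hℓ⟩ (z : JZero (q * M)) -
            (ℓ + 1) • (z : JZero (q * M))) -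
          q ^ 2 • (heckeOperatorBar (q * M) ⟨ℓ, hℓ⟩ (z : JZero (q * M)) -
            (ℓ + 1) • (z : JZero (q * M)))) = 0 ∧
      c • (σ • (heckeOperatorBar (q * M) ⟨ℓ, hℓ⟩ (z : JZero (q * M)) -
            (ℓ + 1) • (z : JZero (q * M))) -
          q • heckeOperatorBar (q * M) ⟨q, hq.out⟩
            (heckeOperatorBar (q * M) ⟨ℓ, hℓ⟩ (z : JZero (q * M)) -
              (ℓ + 1) • (z : JZero (q * M)))) = 0 := by
  obtain ⟨e, he, hsq, hsgn⟩ := exists_powerOn_both hA hqM hσ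
  refine ⟨e, he, fun n z u hz hu => ?_⟩
  have : NeZero (p ^ n) := ⟨pow_ne_zero n (Fact.out : p.Prime).ne_zero⟩
  obtain ⟨f, hy, hfix, hgu, hN, hNw⟩ := exists_fixed_function hA hqM t ht ℓ hℓ hℓN n z u hz hu
  rw [← hy]
  set x : FB (q * M) := ((f : (FB (q * M))ˣ) : FB (q * M))
  have hx : x ≠ 0 := Units.ne_zero _
  have hqpn : ¬ q ∣ p ^ n := fun h => hqp ((Nat.prime_dvd_prime_iff_eq hq.out Fact.out).mp
    (hq.out.dvd_of_dvd_pow h))
  have hpn : p ^ n ≠ 0 := NeZero.ne _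
  set F : loc2 A (iota2 M q hqM) := ⟨x, (mem_loc2 _).mpr fun s => (hgu s).1⟩
  have hne : ∀ s, red2 A (iota2 M q hqM) F s ≠ 0 := fun s => by
    rw [red2_apply]; exact (hgu s).2
  have hN' : ∃ g : FB M, normUp q M x = g ^ p ^ n := hN.imp fun _ h => h.2
  have hNw' : ∃ g : FB M, normUp q M (wEquiv q M hqM x) = g ^ p ^ n := hNw.imp fun _ h => h.2
  have hdiv : ∀ v : Place QBar (FB (q * M)), ((p ^ n : ℕ) : ℤ) ∣ v.ord x := f.2
  set D : Divisor QBar (FB (q * M)) := divQuot f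
  have hord : ∀ v, v.ord x = ((p ^ n : ℕ) : ℤ) * D v := fun v => by
    have h := DFunLike.congr_fun (JacTorsion.smul_divQuot f) v
    rw [Finsupp.smul_apply, smul_eq_mul, FF.div_apply] at h
    exact h.symm
  have h1 : galF (q * M) σ x ≠ 0 := (_root_.map_ne_zero _).mpr hx
  have h2 : galF (q * M) σ (galF (q * M) σ x) ≠ 0 := (_root_.map_ne_zero _).mpr h1
  constructor
  · obtain ⟨G, hG⟩ := hsq (p ^ n) hqpn F hfix hdiv hne hN' hNw'
    change (galF (q * M) σ (galF (q * M) σ x) * (x ^ (q ^ 2))⁻¹) ^ e = G ^ p ^ n at hG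
    have hG0 : G ≠ 0 := fun h0 => pow_ne_zero e (mul_ne_zero h2 (inv_ne_zero (pow_ne_zero _ hx)))
      (by rw [hG, h0, zero_pow hpn])
    set d : Divisor.degZero (K := QBar) (F := FB (q * M)) :=
      ⟨galD σ (galD σ D) - q ^ 2 • D, sub_mem
        (SemilinearAut.smul_mem_degZero _ (SemilinearAut.smul_mem_degZero _
          (JacTorsion.divQuot_mem_degZero f)))
        (nsmul_mem (JacTorsion.divQuot_mem_degZero f) _)⟩
    refine (?_ : e • Pic0.mk d = 0)
    refine nsmul_mk_eq_zero hpn e hG0 d fun v => ?_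
    rw [← FF.ord_pow, ← hG, FF.ord_pow, v.ord_mul h2 (inv_ne_zero (pow_ne_zero _ hx)), v.ord_inv,
      FF.ord_pow, ord_galF σ (ord_galF σ hord) v, hord v]
    show _ * (_ * (galD σ (galD σ D) - q ^ 2 • D : Divisor QBar (FB (q * M))) v) = _
    rw [Finsupp.sub_apply, Finsupp.smul_apply, nsmul_eq_mul]
    push_cast
    ring
  · have hW := eq_neg_of_add_eq_zero_left (UqW.heckeOperatorBar_add_wDiv hqM f hN)
    rw [hW, neg_nsmul, sub_neg_eq_add]
    obtain ⟨G, hG⟩ := hsgn (p ^ n) hqpn F hfix hdiv hne hN' hNw'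
    change (galF (q * M) σ x * wEquiv q M hqM x ^ q) ^ e = G ^ p ^ n at hG
    have hw : wEquiv q M hqM x ≠ 0 := (_root_.map_ne_zero _).mpr hx
    have hG0 : G ≠ 0 := fun h0 => pow_ne_zero e (mul_ne_zero h1 (pow_ne_zero _ hw))
      (by rw [hG, h0, zero_pow hpn])
    set Dw : Divisor QBar (FB (q * M)) := divQuot (wDiv hqM f)
    have hordw : ∀ v, v.ord (wEquiv q M hqM x) = ((p ^ n : ℕ) : ℤ) * Dw v := fun v => by
      have h := DFunLike.congr_fun (JacTorsion.smul_divQuot (wDiv hqM f)) v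
      rw [Finsupp.smul_apply, smul_eq_mul, FF.div_apply, coe_wDiv hqM] at h
      exact h.symm
    set d : Divisor.degZero (K := QBar) (F := FB (q * M)) :=
      ⟨galD σ D + q • Dw, add_mem
        (SemilinearAut.smul_mem_degZero _ (JacTorsion.divQuot_mem_degZero f))
        (nsmul_mem (JacTorsion.divQuot_mem_degZero _) _)⟩
    refine (?_ : e • Pic0.mk d = 0)
    refine nsmul_mk_eq_zero hpn e hG0 d fun v => ?_
    rw [← FF.ord_pow, ← hG, FF.ord_pow, v.ord_mul h1 (pow_ne_zero _ hw),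
      FF.ord_pow, ord_galF σ hord v, hordw v]
    show _ * (_ * (galD σ D + q • Dw : Divisor QBar (FB (q * M))) v) = _
    rw [Finsupp.add_apply, Finsupp.smul_apply, nsmul_eq_mul]
    push_cast
    ring

/-- The torsion statement used for `ToricSquareAt`. -/
theorem toricTorsionAt {N : ℕ} [NeZero N] {p : ℕ} [Fact p.Prime] {q : ℕ} (hq : q.Prime)
    (hqp : q ≠ p) (hq2 : ¬ q ^ 2 ∣ N) : ToricTorsionAt N p q := by
  intro R _ hR hRq t ht ℓ hℓ hℓN A hA σ hσ
  have := Fact.mk hq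
  obtain rfl : N = q * R := by rw [mul_comm, hRq]
  have hqR : ¬ q ∣ R := fun h => hq2 (by rw [pow_two]; exact mul_dvd_mul_left q h)
  obtain ⟨c, hc, h⟩ := exists_kill_level hqp hqR t ht ℓ hℓ hℓN hA hσ
  exact ⟨c, hc, fun n z u hz hu => (h n z u hz hu).1⟩

/-- **The square of Frobenius on the toric part.** -/
theorem toricSquareAt (N p : ℕ) [NeZero N] [Fact p.Prime] (hES : GaloisReps.CongruenceProperty N p)
    {q : ℕ} (hq : q.Prime) (hqp : q ≠ p) (hq2 : ¬ q ^ 2 ∣ N) :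
    NewformLocal.ToricSquareAt (GaloisReps.modelOfCongruence hES) q :=
  toricSquareAt_modelOfCongruence hES (toricTorsionAt hq hqp hq2)


/-- The torsion statement used for `ToricSignedAt`. -/
theorem toricSignedTorsionAt {N : ℕ} [NeZero N] {p : ℕ} [Fact p.Prime] {q : ℕ} (hq : q.Prime)
    (hqp : q ≠ p) (hq2 : ¬ q ^ 2 ∣ N) : ToricSignedTorsionAt N p q hq := by
  intro R _ hR hRq t ht ℓ hℓ hℓN A hA σ hσ
  have := Fact.mk hq
  obtain rfl : N = q * R := by rw [mul_comm, hRq]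
  have hqR : ¬ q ∣ R := fun h => hq2 (by rw [pow_two]; exact mul_dvd_mul_left q h)
  obtain ⟨c, hc, h⟩ := exists_kill_level hqp hqR t ht ℓ hℓ hℓN hA hσ
  exact ⟨c, hc, fun n z u hz hu => (h n z u hz hu).2⟩

/-- **Frobenius is `q U_q` on the toric part.** -/
theorem toricSignedAt (N p : ℕ) [NeZero N] [Fact p.Prime] (hES : GaloisReps.CongruenceProperty N p)
    {q : ℕ} (hq : q.Prime) (hqp : q ≠ p) (hq2 : ¬ q ^ 2 ∣ N) :
    ToricSignedAt (GaloisReps.modelOfCongruence hES) q hq :=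
  toricSignedAt_modelOfCongruence hES hq (toricSignedTorsionAt hq hqp hq2)

end Fermat.Agent.Semistable

end
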