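import Fermat.Agent.GaloisReps.Unconditional
import Fermat.Agent.Semistable.ToricTorsion

/-!
# The local inputs at primes exactly dividing the level on the model of `J₀(N)`
-/

set_option autoImplicit false

noncomputable section

namespace Fermat.Agent.Semistable

open GaloisReps (heckeGaloisModel HeckeGaloisModel congruenceProperty)

variable (N p : ℕ) [NeZero N] [Fact p.Prime] {q : ℕ}

theorem unipotentAt_model (hq : q.Prime) (hqp : q ≠ p) (hqN : q ∣ N) (hq2 : ¬ q ^ 2 ∣ N) :
    NewformLocal.UnipotentAt (heckeGaloisModel N p) q :=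
  GaloisReps.unipotentAt_heckeGaloisModel hq hqp (torsionUnipotentAt N hq hqN hq2)

theorem toricSquareAt_model (hq : q.Prime) (hqp : q ≠ p) (hq2 : ¬ q ^ 2 ∣ N) :
    NewformLocal.ToricSquareAt (heckeGaloisModel N p) q :=
  toricSquareAt N p (congruenceProperty N p) hq hqp hq2

theorem toricSignedAt_model (hq : q.Prime) (hqp : q ≠ p) (hq2 : ¬ q ^ 2 ∣ N) :
    ToricSignedAt (heckeGaloisModel N p) q hq :=
  toricSignedAt N p (congruenceProperty N p) hq hqp hq2

/-- The hypothesis of `NewformLocal.exists_rep_of_models` and of the consumers of the two local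
inputs. -/
theorem exists_localModel : ∃ D : HeckeGaloisModel N p,
    ∀ q : ℕ, q.Prime → q ≠ p → q ∣ N → ¬ q ^ 2 ∣ N →
      NewformLocal.UnipotentAt D q ∧ NewformLocal.ToricSquareAt D q :=
  ⟨heckeGaloisModel N p, fun _ hq hqp hqN hq2 =>
    ⟨unipotentAt_model N p hq hqp hqN hq2, toricSquareAt_model N p hq hqp hq2⟩⟩

end Fermat.Agent.Semistable

end
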